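import Fermat.Agent.DSE.Uni
import Fermat.Agent.LG.AsmD
import Fermat.Agent.LG.TDataC

/-!
# Commutation of the Hecke and diamond operators
-/

set_option autoImplicit false
set_option linter.unusedSectionVars false
set_option linter.style.haveILetI false

noncomputable section

namespace Fermat.Agent.DSE

open Matrix.SpecialLinearGroup UpperHalfPlane CongruenceSubgroup
open Fermat.Agent.LG (PE mem_PE conjH conjH_apply conjH_mem compHD compHD_hom coe_mapGL' IsCong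
  TData tdataG repS sx sx_mem)
open Fermat.Agent.HeckeHom (HData sum_eq_zero_of_orbits)
open Fermat.Agent.TW (M2Z bI bI_infty bI_coe det_bI exists_factor exists_mul_bI uniq_gen uniq_SL)
open Fermat.Agent.TorsCmp (hdata_hom_eq mem_Gamma0_iff)
open scoped MatrixGroups

/-- The condition on the subgroup. -/
structure IsPM (Γ : Subgroup SL(2, ℤ)) (M q : ℕ) : Prop where
  dvd : q ∣ M
  iff : ∀ γ, γ ∈ Γ ↔ γ ∈ Gamma0 M ∧ ((q : ℤ) ∣ γ 1 1 - 1 ∨ (q : ℤ) ∣ γ 1 1 + 1)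

/-- integral matrices -/
structure Del (M q : ℕ) (n c : ℤ) (B : M2Z) : Prop where
  det : B.det = n
  low : (M : ℤ) ∣ B 1 0
  right : (q : ℤ) ∣ B 1 1 - c ∨ (q : ℤ) ∣ B 1 1 + c

section

variable {M q : ℕ}

theorem pm_mul {m a b c d : ℤ} (h : m ∣ a - b ∨ m ∣ a + b) (h' : m ∣ c - d ∨ m ∣ c + d) :
    m ∣ a * c - b * d ∨ m ∣ a * c + b * d := by
  rcases h with h | h <;> rcases h' with h' | h'
  · left
    have : a * c - b * d = (a - b) * c + b * (c - d) := by ring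
    rw [this]
    exact dvd_add (h.mul_right _) (h'.mul_left _)
  · right
    have : a * c + b * d = (a - b) * c + b * (c + d) := by ring
    rw [this]
    exact dvd_add (h.mul_right _) (h'.mul_left _)
  · right
    have : a * c + b * d = (a + b) * c - b * (c - d) := by ring
    rw [this]
    exact dvd_sub (h.mul_right _) (h'.mul_left _)
  · left
    have : a * c - b * d = (a + b) * c - b * (c + d) := by ring
    rw [this]
    exact dvd_sub (h.mul_right _) (h'.mul_left _)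

/-- cancellation -/
theorem pm_cancel {m a b c d : ℤ} (h : m ∣ a * c - b * d ∨ m ∣ a * c + b * d)
    (h' : m ∣ c - d ∨ m ∣ c + d) (hc : IsCoprime m c) : m ∣ a - b ∨ m ∣ a + b := by
  have key : m ∣ (a - b) * c ∨ m ∣ (a + b) * c := by
    rcases h with h | h <;> rcases h' with h' | h'
    · left
      have : (a - b) * c = (a * c - b * d) - b * (c - d) := by ring
      rw [this]
      exact dvd_sub h (h'.mul_left _)
    · right
      have : (a + b) * c = (a * c - b * d) + b * (c + d) := by ring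
      rw [this]
      exact dvd_add h (h'.mul_left _)
    · right
      have : (a + b) * c = (a * c + b * d) + b * (c - d) := by ring
      rw [this]
      exact dvd_add h (h'.mul_left _)
    · left
      have : (a - b) * c = (a * c + b * d) - b * (c + d) := by ring
      rw [this]
      exact dvd_sub h (h'.mul_left _)
  rcases key with h | h
  · exact Or.inl (hc.dvd_of_dvd_mul_right h)
  · exact Or.inr (hc.dvd_of_dvd_mul_right h)

theorem pm_congr {m a a' b : ℤ} (h : m ∣ a' - a) (h' : m ∣ a - b ∨ m ∣ a + b) :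
    m ∣ a' - b ∨ m ∣ a' + b := by
  rcases h' with h' | h'
  · left
    have : a' - b = (a' - a) + (a - b) := by ring
    rw [this]
    exact dvd_add h h'
  · right
    have : a' + b = (a' - a) + (a + b) := by ring
    rw [this]
    exact dvd_add h h'

theorem mul_10 (A B : M2Z) : (A * B) 1 0 = A 1 0 * B 0 0 + A 1 1 * B 1 0 := by
  rw [Matrix.mul_apply, Fin.sum_univ_two]

theorem mul_11 (A B : M2Z) : (A * B) 1 1 = A 1 0 * B 0 1 + A 1 1 * B 1 1 := by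
  rw [Matrix.mul_apply, Fin.sum_univ_two]

theorem Del.mul (hq : q ∣ M) {n c n' c' : ℤ} {A B : M2Z} (hA : Del M q n c A)
    (hB : Del M q n' c' B) : Del M q (n * n') (c * c') (A * B) := by
  refine ⟨by rw [Matrix.det_mul, hA.det, hB.det], ?_, ?_⟩
  · rw [mul_10]
    exact dvd_add (hA.low.mul_right _) (hB.low.mul_left _)
  · have h1 : (q : ℤ) ∣ (A * B) 1 1 - A 1 1 * B 1 1 := by
      rw [mul_11, add_sub_cancel_right]
      exact (((Int.natCast_dvd_natCast.2 hq).trans hA.low)).mul_right _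
    exact pm_congr h1 (pm_mul hA.right hB.right)

theorem Del.coprime (hq : q ∣ M) {n c : ℤ} {B : M2Z} (hB : Del M q n c B)
    (hn : IsCoprime n (M : ℤ)) : IsCoprime (q : ℤ) (B 1 1) := by
  have h1 := hB.det
  rw [Matrix.det_fin_two] at h1
  obtain ⟨k, hk⟩ := (Int.natCast_dvd_natCast.2 hq).trans hB.low
  obtain ⟨j, hj⟩ := Int.natCast_dvd_natCast.2 hq
  obtain ⟨u, v, huv⟩ := hn
  refine ⟨-u * B 0 1 * k + v * j, u * B 0 0, ?_⟩
  rw [← huv, ← h1, hk, hj]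
  ring

theorem Del.right_cancel (hq : q ∣ M) {n c n' c' : ℤ} {A B : M2Z} (hB : Del M q n' c' B)
    (hAB : Del M q (n * n') (c * c') (A * B)) (hn : IsCoprime n' (M : ℤ)) (hn0 : n' ≠ 0) :
    Del M q n c A := by
  refine ⟨?_, ?_, ?_⟩
  · have := hAB.det
    rw [Matrix.det_mul, hB.det] at this
    exact mul_right_cancel₀ hn0 this
  · have h1 : n' * A 1 0 = (A * B) 1 0 * B 1 1 - (A * B) 1 1 * B 1 0 := by
      rw [← hB.det, mul_10, mul_11, Matrix.det_fin_two]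
      ring
    have h2 : (M : ℤ) ∣ n' * A 1 0 := by
      rw [h1]
      exact dvd_sub (hAB.low.mul_right _) (hB.low.mul_left _)
    exact hn.symm.dvd_of_dvd_mul_left h2
  · have h1 : (q : ℤ) ∣ A 1 1 * B 1 1 - (A * B) 1 1 := by
      have hAlow : (M : ℤ) ∣ A 1 0 := by
        have h1 : n' * A 1 0 = (A * B) 1 0 * B 1 1 - (A * B) 1 1 * B 1 0 := by
          rw [← hB.det, mul_10, mul_11, Matrix.det_fin_two]
          ring
        have h2 : (M : ℤ) ∣ n' * A 1 0 := by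
          rw [h1]
          exact dvd_sub (hAB.low.mul_right _) (hB.low.mul_left _)
        exact hn.symm.dvd_of_dvd_mul_left h2
      rw [mul_11, sub_add_cancel_right, dvd_neg]
      exact (((Int.natCast_dvd_natCast.2 hq).trans hAlow)).mul_right _
    exact pm_cancel (pm_congr h1 hAB.right) hB.right (hB.coprime hq hn)

end

section

variable {Γ : Subgroup SL(2, ℤ)} {M q : ℕ}

theorem IsPM.mem_iff (hΓ : IsPM Γ M q) (γ : SL(2, ℤ)) :
    γ ∈ Γ ↔ Del M q 1 1 (γ : M2Z) := by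
  rw [hΓ.iff, mem_Gamma0_iff]
  exact ⟨fun h => ⟨γ.2, h.1, h.2⟩, fun h => ⟨h.low, h.right⟩⟩

theorem del_gamma0 {g : SL(2, ℤ)} (hg : g ∈ Gamma0 M) : Del M q 1 (g 1 1) (g : M2Z) :=
  ⟨g.2, mem_Gamma0_iff.1 hg, Or.inl (by rw [sub_self]; exact dvd_zero _)⟩

theorem IsPM.le (hΓ : IsPM Γ M q) : Γ ≤ Gamma0 M := fun γ hγ => ((hΓ.iff γ).1 hγ).1

theorem IsPM.isCong (hΓ : IsPM Γ M q) : IsCong Γ M q where
  le := hΓ.le
  dvd := hΓ.dvd
  mem γ hγ δ hδ h := (hΓ.iff δ).2 ⟨hδ, pm_congr h ((hΓ.iff γ).1 hγ).2⟩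

theorem IsPM.conj (hΓ : IsPM Γ M q) {g : SL(2, ℤ)} (hg : g ∈ Gamma0 M) :
    ∀ γ ∈ Γ, g * γ * g⁻¹ ∈ Γ := by
  intro γ hγ
  rw [hΓ.mem_iff] at hγ ⊢
  have h1 := (del_gamma0 (q := q) hg).mul hΓ.dvd hγ
  have h2 : ((g * γ * g⁻¹ : SL(2, ℤ)) : M2Z) * (g : M2Z) = (g : M2Z) * (γ : M2Z) := by
    rw [← Matrix.SpecialLinearGroup.coe_mul, ← Matrix.SpecialLinearGroup.coe_mul,
      inv_mul_cancel_right]
  refine (del_gamma0 (q := q) hg).right_cancel hΓ.dvd (n := 1) (c := 1) ?_ isCoprime_one_left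
    one_ne_zero
  rw [h2, mul_comm (1 : ℤ) (g 1 1)]
  exact h1

/-- left cancellation -/
theorem IsPM.left_cancel (hΓ : IsPM Γ M q) {n c : ℤ} (hn : IsCoprime n (M : ℤ)) (hn0 : n ≠ 0)
    {t : SL(2, ℤ)} {B : M2Z} (hB : Del M q n c B) (htB : Del M q n c ((t : M2Z) * B)) :
    t ∈ Γ := by
  rw [hΓ.mem_iff]
  refine hB.right_cancel hΓ.dvd (n := 1) (c := 1) ?_ hn hn0
  rwa [one_mul, one_mul]

/-- complete families of representatives -/
structure Full (M q : ℕ) (n c : ℤ) (D : HData Γ Γ) : Prop where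
  int : ∀ x, ∃ B : M2Z, ((D.α x : GL (Fin 2) ℝ) : Matrix (Fin 2) (Fin 2) ℝ) =
    B.map (Int.castRingHom ℝ) ∧ Del M q n c B
  ex : ∀ B : M2Z, Del M q n c B → ∃ (x : D.X) (t : Γ), B.map (Int.castRingHom ℝ) =
    ((mapGL ℝ (t : SL(2, ℤ)) * D.α x : GL (Fin 2) ℝ) : Matrix (Fin 2) (Fin 2) ℝ)

theorem Full.card_le {n c : ℤ} {D D' : HData Γ Γ} (h : Full M q n c D) (h' : Full M q n c D') :
    (∀ x : D.X, ∃ (y : D'.X) (t : Γ), D.α x = mapGL ℝ (t : SL(2, ℤ)) * D'.α y) ∧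
    Fintype.card D.X ≤ Fintype.card D'.X := by
  have h1 : ∀ x : D.X, ∃ (y : D'.X) (t : Γ), D.α x = mapGL ℝ (t : SL(2, ℤ)) * D'.α y := by
    intro x
    obtain ⟨B, hB, hB'⟩ := h.int x
    obtain ⟨y, t, ht⟩ := h'.ex B hB'
    exact ⟨y, t, Units.ext (hB.trans ht)⟩
  refine ⟨h1, ?_⟩
  choose e t ht using h1
  refine Fintype.card_le_of_injective e fun x x' hxx => ?_
  apply D.uniq (t x * (t x')⁻¹)
  rw [Subgroup.coe_mul, map_mul, Subgroup.coe_inv, map_inv, ht x, ht x', hxx]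
  group

theorem Full.hom_eq {n c : ℤ} {D D' : HData Γ Γ} (h : Full M q n c D) (h' : Full M q n c D')
    (A : Type*) [AddCommGroup A] : D.hom A = D'.hom A :=
  hdata_hom_eq D D' (h.card_le h').1 (le_antisymm (h.card_le h').2 (h'.card_le h).2) A

theorem map_inj {A B : M2Z} (h : A.map (Int.castRingHom ℝ) = B.map (Int.castRingHom ℝ)) :
    A = B := by
  ext i j
  exact Int.cast_injective (α := ℝ) (congrFun (congrFun h i) j)

/-! ### the operators -/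

/-- the data for conjugation -/
def dataC (g : SL(2, ℤ)) (hg : ∀ γ ∈ Γ, g * γ * g⁻¹ ∈ Γ) : HData Γ Γ where
  X := Unit
  α _ := mapGL ℝ g
  ex γ x := ⟨(), ⟨g * γ * g⁻¹, hg γ γ.2⟩, by
    rw [← map_mul, ← map_mul, inv_mul_cancel_right]⟩
  uniq _ _ _ _ := rfl

theorem dataC_hom (g : SL(2, ℤ)) (hg : ∀ γ ∈ Γ, g * γ * g⁻¹ ∈ Γ) {A : Type*} [AddCommGroup A]
    (x : Additive Γ →+ A) : (dataC g hg).hom A x = conjH g hg x := by
  refine AddMonoidHom.ext fun γ' => ?_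
  obtain ⟨γ, rfl⟩ := Additive.ofMul.surjective γ'
  rw [HData.hom_apply, conjH_apply]
  have h1 := ((dataC g hg).eq_of_spec (γ := γ) (x := ()) (y := ())
    (δ := ⟨g * γ * g⁻¹, hg γ γ.2⟩) (by
      show mapGL ℝ g * _ = mapGL ℝ (g * (γ : SL(2, ℤ)) * g⁻¹) * mapGL ℝ g
      rw [← map_mul, ← map_mul, inv_mul_cancel_right])).2
  rw [h1]
  exact Fintype.sum_unique (ι := Unit) _

theorem full_dataC (hΓ : IsPM Γ M q) {g : SL(2, ℤ)} (hg : g ∈ Gamma0 M) :
    Full M q 1 (g 1 1) (dataC g (hΓ.conj hg)) where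
  int x := ⟨g, rfl, del_gamma0 hg⟩
  ex B hB := by
    obtain ⟨b, rfl⟩ : ∃ b : SL(2, ℤ), (b : M2Z) = B := ⟨⟨B, hB.det⟩, rfl⟩
    have h1 : ((b * g⁻¹ : SL(2, ℤ)) : M2Z) * (g : M2Z) = (b : M2Z) := by
      rw [← Matrix.SpecialLinearGroup.coe_mul, inv_mul_cancel_right]
    have h2 : b * g⁻¹ ∈ Γ := hΓ.left_cancel isCoprime_one_left one_ne_zero
      (del_gamma0 (q := q) hg) (by rw [h1]; exact hB)
    refine ⟨(), ⟨_, h2⟩, ?_⟩
    show _ = ((mapGL ℝ (b * g⁻¹ : SL(2, ℤ)) * mapGL ℝ g : GL (Fin 2) ℝ) :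
      Matrix (Fin 2) (Fin 2) ℝ)
    rw [← map_mul, inv_mul_cancel_right]
    rfl

variable {p : ℕ} [hp : Fact p.Prime]

theorem coe_repS (σ : SL(2, ℤ)) (x : OnePoint (ZMod p)) :
    ((repS σ x : GL (Fin 2) ℝ) : Matrix (Fin 2) (Fin 2) ℝ) =
      ((sx σ x : M2Z) * bI p x).map (Int.castRingHom ℝ) := by
  rw [repS, Units.val_mul, Matrix.map_mul, coe_mapGL']
  congr 1
  induction x using OnePoint.rec with
  | infty =>
    rw [P2MW.S_ModularForm_heckeT_slash_eq_self_of_mem_Gamma0.ModularForm.HeckeSlashInvariance.heckeRep_infty,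
      ModularForm.val_heckeDiagMatrix hp.out.ne_zero, bI_infty]
    ext i j
    fin_cases i <;> fin_cases j <;> simp
  | coe j =>
    rw [P2MW.S_ModularForm_heckeT_slash_eq_self_of_mem_Gamma0.ModularForm.HeckeSlashInvariance.heckeRep_coe,
      ModularForm.val_heckeMatrix hp.out.ne_zero, bI_coe]
    ext i k
    fin_cases i <;> fin_cases k <;> simp [-ZMod.natCast_val]

theorem del_repS (hq : q ∣ M) {σ : SL(2, ℤ)} (hσ : σ ∈ Gamma0 M) (hσp : (q : ℤ) ∣ σ 1 1 - p)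
    (x : OnePoint (ZMod p)) : Del M q p p ((sx σ x : M2Z) * bI p x) := by
  induction x using OnePoint.rec with
  | infty =>
    have h1 : Del M q p 1 (bI p OnePoint.infty) := by
      refine ⟨det_bI _ _, ?_, ?_⟩ <;> simp [bI_infty]
    have h2 : Del M q 1 p (σ : M2Z) := ⟨σ.2, mem_Gamma0_iff.1 hσ, Or.inl hσp⟩
    have h3 := h2.mul hq h1
    rwa [one_mul, mul_one] at h3
  | coe j =>
    have h1 : Del M q p p (bI p (j : OnePoint (ZMod p))) := by
      refine ⟨det_bI _ _, ?_, ?_⟩ <;> simp [bI_coe]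
    have h2 : ((sx σ (j : OnePoint (ZMod p)) : SL(2, ℤ)) : M2Z) = 1 := rfl
    rw [h2, one_mul]
    exact h1

theorem full_tdataG (hΓ : IsPM Γ M q) (hpM : ¬ p ∣ M) (σ : SL(2, ℤ)) (hσ : σ ∈ Gamma0 M)
    (hqp : IsCoprime (q : ℤ) (p : ℤ)) (hσp : (q : ℤ) ∣ σ 1 1 - p) :
    Full M q p p (tdataG hΓ.isCong hpM σ hσ hqp hσp).H where
  int x := ⟨_, coe_repS σ x, del_repS hΓ.dvd hσ hσp x⟩
  ex B hB := by
    obtain ⟨x, g, rfl⟩ := exists_mul_bI hp.out B hB.det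
    have h1 : (g : M2Z) * bI p x = ((g * (sx σ x)⁻¹ : SL(2, ℤ)) : M2Z) *
        ((sx σ x : M2Z) * bI p x) := by
      rw [← mul_assoc, ← Matrix.SpecialLinearGroup.coe_mul, inv_mul_cancel_right]
    have hc : IsCoprime (p : ℤ) (M : ℤ) := by
      rw [Nat.isCoprime_iff_coprime]
      exact (Nat.Prime.coprime_iff_not_dvd hp.out).2 hpM
    rw [h1] at hB ⊢
    have h2 : g * (sx σ x)⁻¹ ∈ Γ := hΓ.left_cancel hc (by exact_mod_cast hp.out.ne_zero)
      (del_repS hΓ.dvd hσ hσp x) hB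
    refine ⟨x, ⟨_, h2⟩, ?_⟩
    rw [Units.val_mul, Matrix.map_mul]
    congr 1
    exact (coe_repS σ x).symm

theorem uniq_comp {D : HData Γ Γ} {n c : ℤ} (hD : Full M q n c D) (hΓ : IsPM Γ M q)
    (hpM : ¬ p ∣ M) (σ : SL(2, ℤ)) (hσ : σ ∈ Gamma0 M) (hqp : IsCoprime (q : ℤ) (p : ℤ))
    (hσp : (q : ℤ) ∣ σ 1 1 - p) (hn : ¬ (p : ℤ) ∣ n)
    (δ : Γ) (x x' : D.X) (y y' : (tdataG hΓ.isCong hpM σ hσ hqp hσp).H.X)
    (h : D.α x * (tdataG hΓ.isCong hpM σ hσ hqp hσp).H.α y = mapGL ℝ (δ : SL(2, ℤ)) *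
      (D.α x' * (tdataG hΓ.isCong hpM σ hσ hqp hσp).H.α y')) : x = x' ∧ y = y' := by
  change OnePoint (ZMod p) at y y'
  change D.α x * repS σ y = mapGL ℝ (δ : SL(2, ℤ)) * (D.α x' * repS σ y') at h
  obtain ⟨A, hA, hA'⟩ := hD.int x
  obtain ⟨A', hA1, hA1'⟩ := hD.int x'
  have h0 := congrArg (fun z : GL (Fin 2) ℝ => (z : Matrix (Fin 2) (Fin 2) ℝ)) h
  simp only [Units.val_mul, coe_repS, coe_mapGL', hA, hA1] at h0
  rw [← Matrix.map_mul, ← Matrix.map_mul, ← Matrix.map_mul] at h0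
  have h2 := map_inj h0
  have h3 : (A * (sx σ y : M2Z)) * bI p y = ((δ : SL(2, ℤ)) * A' * (sx σ y' : M2Z)) * bI p y' := by
    rw [mul_assoc, h2]
    simp only [mul_assoc]
  obtain ⟨h4, h5⟩ := uniq_gen hp.out h3
    (by rw [Matrix.det_mul, hA'.det, Matrix.SpecialLinearGroup.det_coe, mul_one]; exact hn)
    (by rw [Matrix.det_mul, Matrix.det_mul, hA1'.det, Matrix.SpecialLinearGroup.det_coe,
      Matrix.SpecialLinearGroup.det_coe, mul_one, one_mul]; exact hn)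
  subst h4
  refine ⟨?_, rfl⟩
  apply D.uniq δ
  rw [← mul_assoc] at h
  exact mul_right_cancel h

/-- composition with `T_p` -/
theorem full_comp {D : HData Γ Γ} {n c : ℤ} (hD : Full M q n c D) (hΓ : IsPM Γ M q)
    (hpM : ¬ p ∣ M) (σ : SL(2, ℤ)) (hσ : σ ∈ Gamma0 M) (hqp : IsCoprime (q : ℤ) (p : ℤ))
    (hσp : (q : ℤ) ∣ σ 1 1 - p) (hn : ¬ (p : ℤ) ∣ n) :
    Full M q (n * p) (c * p) (compHD D (tdataG hΓ.isCong hpM σ hσ hqp hσp).H
      (uniq_comp hD hΓ hpM σ hσ hqp hσp hn)) where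
  int z := by
    obtain ⟨x, y⟩ := z
    change OnePoint (ZMod p) at y
    obtain ⟨A, hA, hA'⟩ := hD.int x
    refine ⟨A * ((sx σ y : M2Z) * bI p y), ?_, hA'.mul hΓ.dvd (del_repS hΓ.dvd hσ hσp y)⟩
    show ((D.α x * repS σ y : GL (Fin 2) ℝ) : Matrix (Fin 2) (Fin 2) ℝ) = _
    rw [Units.val_mul, Matrix.map_mul, hA, coe_repS]
  ex B hB := by
    obtain ⟨y, B', rfl⟩ := exists_factor hp.out B (by rw [hB.det]; exact Dvd.intro_left _ rfl)
    have h1 : B' * bI p y = (B' * (((sx σ y)⁻¹ : SL(2, ℤ)) : M2Z)) *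
        ((sx σ y : M2Z) * bI p y) := by
      have h2 : (((sx σ y)⁻¹ : SL(2, ℤ)) : M2Z) * (sx σ y : M2Z) = 1 := by
        rw [← Matrix.SpecialLinearGroup.coe_mul, inv_mul_cancel]
        exact Matrix.SpecialLinearGroup.coe_one
      rw [mul_assoc, ← mul_assoc _ (sx σ y : M2Z), h2, one_mul]
    have hc : IsCoprime (p : ℤ) (M : ℤ) := by
      rw [Nat.isCoprime_iff_coprime]
      exact (Nat.Prime.coprime_iff_not_dvd hp.out).2 hpM
    rw [h1] at hB ⊢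
    have h2 := (del_repS hΓ.dvd hσ hσp y).right_cancel hΓ.dvd hB hc
      (by exact_mod_cast hp.out.ne_zero)
    obtain ⟨x, t, ht⟩ := hD.ex _ h2
    refine ⟨(x, y), t, ?_⟩
    show _ = ((mapGL ℝ (t : SL(2, ℤ)) * (D.α x * repS σ y) : GL (Fin 2) ℝ) :
      Matrix (Fin 2) (Fin 2) ℝ)
    rw [← mul_assoc (mapGL ℝ (t : SL(2, ℤ))) (D.α x), Units.val_mul, ← ht, coe_repS,
      ← Matrix.map_mul]

end

section

variable {Γ : Subgroup SL(2, ℤ)} {M q : ℕ}

/-- composition with a conjugation -/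
theorem full_compC {D : HData Γ Γ} {n c : ℤ} (hD : Full M q n c D) (hΓ : IsPM Γ M q)
    {g : SL(2, ℤ)} (hg : g ∈ Gamma0 M)
    (hu : ∀ (δ : Γ) (x x' : D.X) (y y' : (dataC g (hΓ.conj hg)).X),
      D.α x * (dataC g (hΓ.conj hg)).α y = mapGL ℝ (δ : SL(2, ℤ)) *
      (D.α x' * (dataC g (hΓ.conj hg)).α y') → x = x' ∧ y = y') :
    Full M q (n * 1) (c * g 1 1) (compHD D (dataC g (hΓ.conj hg)) hu) where
  int z := by
    obtain ⟨x, y⟩ := z
    obtain ⟨A, hA, hA'⟩ := hD.int x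
    refine ⟨A * g, ?_, hA'.mul hΓ.dvd (del_gamma0 hg)⟩
    show ((D.α x * mapGL ℝ g : GL (Fin 2) ℝ) : Matrix (Fin 2) (Fin 2) ℝ) = _
    rw [Units.val_mul, Matrix.map_mul, hA]
    rfl
  ex B hB := by
    have h1 : B = (B * ((g⁻¹ : SL(2, ℤ)) : M2Z)) * (g : M2Z) := by
      rw [mul_assoc, ← Matrix.SpecialLinearGroup.coe_mul, inv_mul_cancel,
        Matrix.SpecialLinearGroup.coe_one, mul_one]
    rw [h1] at hB ⊢
    have h2 := (del_gamma0 (q := q) hg).right_cancel hΓ.dvd hB isCoprime_one_left one_ne_zero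
    obtain ⟨x, t, ht⟩ := hD.ex _ h2
    refine ⟨(x, ()), t, ?_⟩
    show _ = ((mapGL ℝ (t : SL(2, ℤ)) * (D.α x * mapGL ℝ g) : GL (Fin 2) ℝ) :
      Matrix (Fin 2) (Fin 2) ℝ)
    rw [← mul_assoc, Units.val_mul, ← ht, Matrix.map_mul]
    rfl

theorem uniq_compC {D : HData Γ Γ} {g : SL(2, ℤ)} (hg : ∀ γ ∈ Γ, g * γ * g⁻¹ ∈ Γ)
    (δ : Γ) (x x' : D.X) (y y' : (dataC g hg).X)
    (h : D.α x * (dataC g hg).α y = mapGL ℝ (δ : SL(2, ℤ)) * (D.α x' * (dataC g hg).α y')) :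
    x = x' ∧ y = y' := by
  refine ⟨?_, rfl⟩
  apply D.uniq δ
  change D.α x * mapGL ℝ g = mapGL ℝ (δ : SL(2, ℤ)) * (D.α x' * mapGL ℝ g) at h
  rw [← mul_assoc] at h
  exact mul_right_cancel h

/-! ### `PE` -/

theorem hom_mem_PE {D : HData Γ Γ} {A : Type*} [AddCommGroup A] {x : Additive Γ →+ A}
    (hx : x ∈ PE Γ A) : D.hom A x ∈ PE Γ A := by
  refine ⟨D.isParabolicHom_hom hx.1, fun γ τ hγ => ?_⟩
  rw [HData.hom_apply]
  refine sum_eq_zero_of_orbits (D.perm γ) _ fun y n _ hfix => ?_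
  rw [← (D.coc_pow x γ n y).2]
  have h1 : ∀ n : ℕ, ((γ ^ n : Γ) : SL(2, ℤ)) • τ = τ := by
    intro n
    induction n with
    | zero => simp
    | succ n ih => rw [pow_succ, Subgroup.coe_mul, mul_smul, hγ, ih]
  refine hx.2 _ (D.α y • τ) ?_
  have h2 := D.smul_smul' (γ ^ n) y τ
  rw [h1, ← (D.coc_pow x γ n y).1, hfix] at h2
  exact h2.symm

end

end Fermat.Agent.DSE

end
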