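import Fermat.Agent.TW.Poly
import Mathlib.RingTheory.LocalRing.Module
import Mathlib.RingTheory.Ideal.Quotient.Basic
import Mathlib.LinearAlgebra.Dual.Lemmas

/-!
# Simultaneous eigenfunctionals for a commuting family of endomorphisms
-/

set_option autoImplicit false

noncomputable section

namespace Fermat.Agent.DSE

open Fermat.Agent.TW (polyEnd polyEnd_X polyEnd_C)
open scoped TensorProduct

/-- A finitely generated abelian group with commuting endomorphisms has an eigenfunctional for
every system of eigenvalues occurring in the support. -/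
theorem exists_eigenfunctional {Q : Type} [AddCommGroup Q] [Module.Finite ℤ Q] {I : Type}
    (T : I → Module.End ℤ Q) (hT : ∀ i j, T i * T j = T j * T i) {k : Type} [Field k]
    (c : I → k) (h : ∀ a : MvPolynomial I ℤ, polyEnd T hT a = 0 → MvPolynomial.aeval c a = 0) :
    ∃ F : Q →+ k, F ≠ 0 ∧ ∀ i x, F (T i x) = c i * F x := by
  classical
  let R := MvPolynomial I ℤ
  let _ : Module R Q := Module.compHom Q (polyEnd T hT).toRingHom
  have hsmul : ∀ (a : R) (x : Q), a • x = polyEnd T hT a x := fun _ _ => rfl
  have : IsScalarTower ℤ R Q := ⟨fun n a x => by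
    rw [hsmul, hsmul, map_smul]; rfl⟩
  have : Module.Finite R Q := Module.Finite.of_restrictScalars_finite ℤ R Q
  let ev : R →+* k := (MvPolynomial.aeval c : R →ₐ[ℤ] k).toRingHom
  let 𝔪 : Ideal R := RingHom.ker ev
  have : 𝔪.IsPrime := RingHom.ker_isPrime ev
  let P : PrimeSpectrum R := ⟨𝔪, inferInstance⟩
  have hann : Module.annihilator R Q ≤ 𝔪 := by
    intro a ha
    rw [Module.mem_annihilator] at ha
    have h1 : polyEnd T hT a = 0 := LinearMap.ext fun x => (hsmul a x).symm.trans (ha x)
    exact h a h1
  have hsupp : P ∈ Module.support R Q := Module.mem_support_iff_of_finite.2 hann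
  have hnt : Nontrivial (TensorProduct R P.asIdeal.ResidueField Q) :=
    (Module.mem_support_iff_nontrivial_residueField_tensorProduct P).1 hsupp
  obtain ⟨y, hy⟩ := exists_ne (0 : TensorProduct R P.asIdeal.ResidueField Q)
  obtain ⟨f, hf⟩ := Module.Projective.exists_dual_ne_zero P.asIdeal.ResidueField hy
  -- the residue field maps to `k`
  let j : P.asIdeal.ResidueField →+* k := Ideal.ResidueField.lift P.asIdeal ev le_rfl
    (fun a ha => isUnit_iff_ne_zero.2 fun h0 => ha h0)
  have hj : ∀ a : R, j (algebraMap R P.asIdeal.ResidueField a) = ev a := fun a =>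
    Ideal.ResidueField.lift_algebraMap _ _ _ _ a
  let g : Q →+ P.asIdeal.ResidueField :=
    { toFun := fun x => f (1 ⊗ₜ[R] x)
      map_zero' := by rw [TensorProduct.tmul_zero, map_zero]
      map_add' := fun x y => by rw [TensorProduct.tmul_add, map_add] }
  have hg : ∀ (a : R) (x : Q), g (a • x) = algebraMap R P.asIdeal.ResidueField a * g x := by
    intro a x
    show f (1 ⊗ₜ[R] (a • x)) = _ * f (1 ⊗ₜ[R] x)
    rw [← TensorProduct.smul_tmul, ← smul_eq_mul, ← map_smul, TensorProduct.smul_tmul',
      Algebra.smul_def, smul_eq_mul]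
  refine ⟨(j : P.asIdeal.ResidueField →+ k).comp g, ?_, fun i x => ?_⟩
  · intro h0
    apply hf
    have h1 : ∀ x : Q, f (1 ⊗ₜ[R] x) = 0 := by
      intro x
      have h2 : j (g x) = 0 := DFunLike.congr_fun h0 x
      exact (map_eq_zero j).1 h2
    have h3 : ∀ z : TensorProduct R P.asIdeal.ResidueField Q, f z = 0 := by
      intro z
      induction z using TensorProduct.induction_on with
      | zero => rw [map_zero]
      | tmul a x =>
        have h2 : a ⊗ₜ[R] x = a • ((1 : P.asIdeal.ResidueField) ⊗ₜ[R] x) := by
          rw [TensorProduct.smul_tmul', smul_eq_mul, mul_one]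
        rw [h2, map_smul, h1, smul_zero]
      | add a b ha hb => rw [map_add, ha, hb, add_zero]
    exact h3 y
  · have h1 : T i x = (MvPolynomial.X i : R) • x := by rw [hsmul, polyEnd_X]
    show j (g (T i x)) = c i * j (g x)
    rw [h1, hg, map_mul, hj]
    congr 1
    show MvPolynomial.aeval c (MvPolynomial.X i) = c i
    rw [MvPolynomial.aeval_X]

end Fermat.Agent.DSE

end
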