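import Fermat.Agent.DSE.Final
import Fermat.Agent.DSF.Wire
import Fermat.Agent.DSP.EisOne

/-!
# Eigenclasses attached to eigenforms of weight one
-/

set_option autoImplicit false

noncomputable section

namespace Fermat.Agent.DSE

open Matrix.SpecialLinearGroup UpperHalfPlane CongruenceSubgroup
open Fermat.Agent.DS1 (G1 mem_G1 isCong_G1 conj_mem_G1)
open scoped MatrixGroups

theorem isPM_G1 {M q : ℕ} (hq : q ∣ M) : IsPM (G1 M q) M q where
  dvd := hq
  iff γ := by
    rw [mem_G1 hq]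
    refine and_congr Iff.rfl (or_congr ?_ ?_)
    · rw [← ZMod.intCast_zmod_eq_zero_iff_dvd]
      push_cast
      rw [sub_eq_zero]
    · rw [← ZMod.intCast_zmod_eq_zero_iff_dvd]
      push_cast
      rw [add_eq_zero_iff_eq_neg]

/-- **Eigenclasses attached to eigenforms of weight one.** -/
theorem eigStmt : DSF.EigStmt := by
  intro N _ ε f hf₁ hT ℓ hℓ h5 _ V hV hfV
  obtain ⟨E, hE, hE'⟩ := DSP.exists_eis_one (ℓ := ℓ) h5
  obtain ⟨F, hF, hF0, h1, h2⟩ := exists_eigen hV hE (fun d n => (hE' V hV d).1 n)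
    (fun d n hn => (hE' V hV d).2.1 n hn) (fun d => (hE' V hV d).2.2) ε f hf₁ hT hfV
    (isPM_G1 (dvd_refl (N * ℓ))) (dvd_mul_right N ℓ) (dvd_mul_left ℓ N)
  refine ⟨F, hF, hF0, ?_, ?_⟩
  · intro s _ hsM σ hσ hqs hσs h
    exact AddMonoidHom.ext fun γ => h1 s _ hsM σ hσ hqs hσs γ
  · intro g hg h
    exact AddMonoidHom.ext fun γ => h2 g hg _ γ

end Fermat.Agent.DSE

end
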