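import Fermat.Agent.DSE.Main

/-!
# The eigenclass modulo `ℓ` attached to a weight one eigenform
-/

set_option autoImplicit false
set_option linter.unusedSectionVars false
set_option linter.style.haveILetI false

noncomputable section

namespace Fermat.Agent.DSE

open Matrix.SpecialLinearGroup UpperHalfPlane CongruenceSubgroup ModularForm Filter
open ModularFormClass (qCoeff)
open Fermat.Agent.LG (PE mem_PE conjH conjH_apply conjH_mem IsCong TData tdataG)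
open Fermat.Agent.HeckeHom (HData)
open Fermat.Agent.WOne (lft del del_lft coe_del IsFamCusp IsFamForm IsFam dia famT)
open Fermat.Agent.IntStr (perSub)
open scoped MatrixGroups ModularForm Manifold Topology

section

variable {Γ : Subgroup SL(2, ℤ)} {N M q ℓ : ℕ} [NeZero N] [NeZero M] [hl : Fact ℓ.Prime]

/-- the weight two family -/
def GG (hNM : N ∣ M) (hℓM : ℓ ∣ M) (f : ℍ → ℂ) (E : (ZMod ℓ)ˣ → ℍ → ℂ) : (ZMod M)ˣ → ℍ → ℂ :=
  pb hNM (WOne.fam N 1 f) * pb hℓM E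

theorem isFamCusp_GG (hNM : N ∣ M) (hℓM : ℓ ∣ M) (f : CuspForm (Gamma1 N) 1)
    {E : (ZMod ℓ)ˣ → ℍ → ℂ} (hE : IsFamForm ℓ 1 E) : IsFamCusp M 2 (GG hNM hℓM f E) := by
  have h1 := (isFamCusp_pb hNM (IsFamCusp.of_cusp f)).mul_form (isFamForm_pb hℓM hE)
  exact h1

theorem unitsMap_del_eq_one {m : ℕ} (hm : m ∣ M) (hmq : m ∣ q) {γ : Gamma0 M}
    (hγ : (q : ℤ) ∣ (γ : SL(2, ℤ)) 1 1 - 1) : ZMod.unitsMap hm (del M γ) = 1 := by
  apply Units.ext
  rw [unitsMap_del, coe_del, Units.val_one]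
  have h1 : (m : ℤ) ∣ (γ : SL(2, ℤ)) 1 1 - 1 := (Int.natCast_dvd_natCast.2 hmq).trans hγ
  have h2 := (ZMod.intCast_zmod_eq_zero_iff_dvd _ _).2 h1
  push_cast at h2
  exact sub_eq_zero.1 h2

theorem GG_mem (hΓ : IsPM Γ M q) (hNq : N ∣ q) (hℓq : ℓ ∣ q) (f : CuspForm (Gamma1 N) 1)
    {E : (ZMod ℓ)ˣ → ℍ → ℂ} (hE : IsFamForm ℓ 1 E) :
    GG (hNq.trans hΓ.dvd) (hℓq.trans hΓ.dvd) f E ∈ SF Γ M := by
  have hG := isFamCusp_GG (hNq.trans hΓ.dvd) (hℓq.trans hΓ.dvd) f hE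
  have key : ∀ γ : Gamma0 M, (q : ℤ) ∣ (γ : SL(2, ℤ)) 1 1 - 1 → ∀ d,
      GG (hNq.trans hΓ.dvd) (hℓq.trans hΓ.dvd) f E (d * del M γ) =
        GG (hNq.trans hΓ.dvd) (hℓq.trans hΓ.dvd) f E d := by
    intro γ hγ d
    rw [GG, Pi.mul_apply, Pi.mul_apply, pb, pb, pb, pb, map_mul, map_mul,
      unitsMap_del_eq_one _ hNq hγ, unitsMap_del_eq_one _ hℓq hγ, mul_one, mul_one]
  refine ⟨hG, fun γ hγ d => ?_⟩
  rcases ((hΓ.iff γ).1 hγ).2 with h | h
  · exact key γ h d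
  · have h1 : (-(γ : SL(2, ℤ))) ∈ Gamma0 M := by
      have h2 := γ.2
      rw [Fermat.Agent.TorsCmp.mem_Gamma0_iff] at h2 ⊢
      simpa using h2
    have h2 : (q : ℤ) ∣ ((⟨_, h1⟩ : Gamma0 M) : SL(2, ℤ)) 1 1 - 1 := by
      have h3 : ((⟨_, h1⟩ : Gamma0 M) : SL(2, ℤ)) 1 1 - 1 = -((γ : SL(2, ℤ)) 1 1 + 1) := by
        simp
        ring
      rw [h3]
      exact h.neg_right
    have h3 := key ⟨_, h1⟩ h2 d
    rw [← hG.fam ⟨_, h1⟩ d] at h3
    rw [← hG.fam γ d]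
    exact (slash_neg_two _ _).symm.trans h3

/-- the eigenvalues -/
def cV {V : ValuationSubring ℂ} (hℓ : V.valuation (ℓ : ℂ) < 1) (hℓM : ℓ ∣ M)
    (ε : DirichletCharacter ℂ N) (a : ℕ → ℂ) (haV : ∀ n, a n ∈ V) : Idx M → V
  | Sum.inl i => ⟨a i.1, haV _⟩
  | Sum.inr g => ⟨ε (((g : SL(2, ℤ)) 1 1 : ℤ) : ZMod N) * (((g : SL(2, ℤ)) 1 1 : ℤ) : ℂ)⁻¹,
      V.mul_mem _ _ (char_mem_V ε _) (inv_mem_V hℓ (by
        intro h
        have h1 := (Int.natCast_dvd_natCast.2 hℓM).trans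
          (Fermat.Agent.TorsCmp.mem_Gamma0_iff.1 g.2)
        have h2 := (g : SL(2, ℤ)).det_coe
        rw [Matrix.det_fin_two] at h2
        have h3 : (ℓ : ℤ) ∣ 1 := by
          rw [← h2]
          exact dvd_sub (h.mul_left _) (h1.mul_left _)
        have h4 := Int.isUnit_iff.1 (isUnit_of_dvd_one h3)
        have h5 := hl.out.one_lt
        omega))⟩

theorem eigen_aux {V : ValuationSubring ℂ} (hℓ : V.valuation (ℓ : ℂ) < 1)
    {E : (ZMod ℓ)ˣ → ℍ → ℂ} (hE : IsFamForm ℓ 1 E) (hEV : ∀ d n, qCoeff (E d) n ∈ V)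
    (hE2 : ∀ d n, n ≠ 0 → V.valuation (qCoeff (E d) n) < 1)
    (hE0 : ∀ d : (ZMod ℓ)ˣ, V.valuation (((d : ZMod ℓ).val : ℂ) * qCoeff (E d) 0 - 1) < 1)
    (ε : DirichletCharacter ℂ N) (f : CuspForm (Gamma1 N) 1) (hf₁ : qCoeff f 1 = 1)
    (hT : ∀ p : ℕ, p.Prime → ¬ p ∣ N → ∀ n : ℕ,
        qCoeff f (p * n) + ε (p : ZMod N) * (if p ∣ n then qCoeff f (n / p) else 0) =
          qCoeff f p * qCoeff f n)
    (hfV : ∀ n, qCoeff f n ∈ V)
    (hΓ : IsPM Γ M q) (hNq : N ∣ q) (hℓq : ℓ ∣ q) :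
    ∃ F : Additive Γ →+ IsLocalRing.ResidueField V, F ∈ PE Γ _ ∧ F ≠ 0 ∧
      ∀ i γ, (ops hΓ i).op _ F γ = IsLocalRing.residue V
        (cV hℓ (hℓq.trans hΓ.dvd) ε (fun n => qCoeff f n) hfV i) * F γ := by
  have hNM := hNq.trans hΓ.dvd
  have hℓM := hℓq.trans hΓ.dvd
  have hle1 : Gamma1 M ≤ Γ := by
    intro γ hγ
    rw [Gamma1_mem] at hγ
    rw [hΓ.iff]
    refine ⟨Gamma0_mem.2 hγ.2.2, Or.inl ((Int.natCast_dvd_natCast.2 hΓ.dvd).trans ?_)⟩
    rw [← ZMod.intCast_zmod_eq_zero_iff_dvd]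
    push_cast
    rw [hγ.2.1, sub_self]
  have hfi : Γ.FiniteIndex := Subgroup.finiteIndex_of_le hle1
  have hfg : Group.FG Γ := inferInstance
  -- the family
  let G : SF Γ M := ⟨GG hNM hℓM f E, GG_mem hΓ hNq hℓq f hE⟩
  have hinv : ∀ g ∈ Gamma1 N, (f : ℍ → ℂ) ∣[(1 : ℤ)] g = f :=
    fun γ hγ => SlashInvariantFormClass.slash_action_eq f _ ⟨γ, hγ, rfl⟩
  have hfp : (f : ℍ → ℂ) ∈ perSub := by
    have h1 := (IsFamCusp.of_cusp f).isFamForm.mem_perSub 1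
    rwa [WOne.fam_one hinv] at h1
  have hneb := WOne.nebentypus ε f hT
  set e : (ZMod M)ˣ → ℂ := fun d => qCoeff (E (ZMod.unitsMap hℓM d)) 0 with he
  set χ : (ZMod M)ˣ → ℂ := fun d => ε (ZMod.unitsMap hNM d : (ZMod N)ˣ) with hχ
  have heV : ∀ d, e d ∈ V := fun d => hEV _ _
  have hχV : ∀ d, χ d ∈ V := fun d => char_mem_V ε _
  -- coefficients of the family
  have hGc : ∀ d n, qCoeff (G.1 d) n - χ d * e d * qCoeff f n ∈ mV V := by
    intro d n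
    have h1 : G.1 d = (χ d • (f : ℍ → ℂ)) * E (ZMod.unitsMap hℓM d) := by
      show WOne.fam N 1 f (ZMod.unitsMap hNM d) * E (ZMod.unitsMap hℓM d) = _
      rw [hneb]
    have h2 := Fermat.Agent.IntStr.qE_mul (perSub.smul_mem hfp (χ d))
      (hE.mem_perSub (ZMod.unitsMap hℓM d))
    have hc : ∀ n, PowerSeries.coeff n (qExpansion 1 (χ d • (f : ℍ → ℂ))) = χ d * qCoeff f n :=
      fun n => WOne.qCoeff_smul hfp (χ d) n
    have h3 := coeff_mul_sub (V := V) (A := qExpansion 1 (χ d • (f : ℍ → ℂ)))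
      (B := qExpansion 1 (E (ZMod.unitsMap hℓM d))) (fun n => by
        rw [hc]; exact V.mul_mem _ _ (hχV d) (hfV n)) (fun n hn => hE2 _ n hn) n
    rw [← h2, ← h1, hc] at h3
    have h4 : qCoeff (G.1 d) n - χ d * e d * qCoeff f n =
        PowerSeries.coeff n (qExpansion 1 (G.1 d)) - χ d * qCoeff f n *
          PowerSeries.coeff 0 (qExpansion 1 (E (ZMod.unitsMap hℓM d))) := by
      show PowerSeries.coeff n (qExpansion 1 (G.1 d)) - χ d *
        PowerSeries.coeff 0 (qExpansion 1 (E (ZMod.unitsMap hℓM d))) * qCoeff f n = _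
      ring
    rw [h4]
    exact h3
  -- the constants
  have hx : ∀ (d : (ZMod M)ˣ) (x : ℤ), (x : ZMod ℓ) = (ZMod.unitsMap hℓM d : (ZMod ℓ)ˣ) →
      (x : ℂ) * e d - 1 ∈ mV V := by
    intro d x hx
    set y : ZMod ℓ := ((ZMod.unitsMap hℓM d : (ZMod ℓ)ˣ) : ZMod ℓ) with hy
    have h1 : (ℓ : ℤ) ∣ x - y.val := by
      rw [← ZMod.intCast_zmod_eq_zero_iff_dvd]
      push_cast
      rw [hx, ZMod.natCast_zmod_val, sub_self]
    have h2 := intCast_mem_mV (V := V) hℓ h1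
    have h3 : (x : ℂ) * e d - 1 = e d * ((x - y.val : ℤ) : ℂ) + ((y.val : ℂ) * e d - 1) := by
      push_cast
      ring
    rw [h3]
    exact (mV V).add_mem (mul_mem_mV (heV d) h2) (hE0 _)
  have hunit : ∀ (d : (ZMod M)ˣ) (x : ℤ), (x : ZMod ℓ) = (ZMod.unitsMap hℓM d : (ZMod ℓ)ˣ) →
      ¬ (ℓ : ℤ) ∣ x := by
    intro d x hx h
    rw [← ZMod.intCast_zmod_eq_zero_iff_dvd, hx] at h
    exact (ZMod.unitsMap hℓM d).ne_zero h
  have hR : ∀ (u d : (ZMod M)ˣ) (m : ℤ), (m : ZMod ℓ) = (ZMod.unitsMap hℓM u : (ZMod ℓ)ˣ) →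
      (m : ℂ) * e (u * d) - e d ∈ mV V := by
    intro u d m hm
    obtain ⟨x, hx'⟩ := ZMod.intCast_surjective ((ZMod.unitsMap hℓM d : (ZMod ℓ)ˣ) : ZMod ℓ)
    have h1 := hx d x hx'
    have h2 := hx (u * d) (m * x) (by
      rw [map_mul, Units.val_mul]
      push_cast
      rw [hm, hx'])
    refine cancel_mV hℓ (hunit d x hx') ?_
    have h3 : (x : ℂ) * ((m : ℂ) * e (u * d) - e d) =
        (((m * x : ℤ) : ℂ) * e (u * d) - 1) - ((x : ℂ) * e d - 1) := by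
      push_cast
      ring
    rw [h3]
    exact (mV V).sub_mem h2 h1
  refine exists_eigenclass (ops hΓ) (fun i j x _ => ops_comm hΓ i j x) (perMap hΓ.le)
    (perMap_injective hΓ.le) (perMap_mem hΓ.le) tOp (perMap_tOp hΓ) V (WV V Γ M)
    (fun v hv w hw => WV_smul V hv hw) (fun i w hw => WV_tOp V i hw) G ?_
    (cV hℓ hℓM ε (fun n => qCoeff f n) hfV) ?_
  · intro v hv hvG
    have h1 := hvG 1 1
    have h2 : qCoeff ((v • G).1 1) 1 = v * qCoeff (G.1 1) 1 :=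
      WOne.qCoeff_smul (SF_per G.2 1) v 1
    rw [h2] at h1
    have h3 := mul_mem_mV hv (hGc 1 1)
    have h4 := mul_mem_mV hv (hx 1 1 (by simp))
    have h5 : χ 1 = 1 := by
      show ε ((ZMod.unitsMap hNM 1 : (ZMod N)ˣ) : ZMod N) = 1
      rw [map_one, Units.val_one, map_one]
    have h6 := (mV V).sub_mem ((mV V).sub_mem h1 h3) h4
    rw [hf₁, h5] at h6
    have h7 : v * qCoeff (G.1 1) 1 - v * (qCoeff (G.1 1) 1 - 1 * e 1 * 1) -
        v * (((1 : ℤ) : ℂ) * e 1 - 1) = v := by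
      push_cast
      ring
    rw [h7] at h6
    exact h6
  · have hsub : ∀ (F F' : SF Γ M) (c : ℂ) (d : (ZMod M)ˣ) (n : ℕ),
        qCoeff ((F - c • F').1 d) n = qCoeff (F.1 d) n - c * qCoeff (F'.1 d) n := by
      intro F F' c d n
      have h1 := qCoeff_sub (SF_per F.2 d) (perSub.smul_mem (SF_per F'.2 d) c) n
      rw [WOne.qCoeff_smul (SF_per F'.2 d)] at h1
      exact h1
    rintro (i | g)
    · intro d n
      obtain ⟨p, hp, hpM⟩ := i
      rw [hsub]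
      have h1 : (tOp (Sum.inl ⟨p, hp, hpM⟩) G).1 d =
        famT 2 p (un (⟨p, hp, hpM⟩ : Pr M)) G.1 d := rfl
      rw [h1, qCoeff_famT (SF_per G.2) hp.ne_zero]
      set u := un (⟨p, hp, hpM⟩ : Pr M) with hu
      have hu' : ((u : (ZMod M)ˣ) : ZMod M) = (p : ZMod M) := coe_un _
      have hpV : (p : ℂ) ∈ V := by exact_mod_cast intCast_mem_V (V := V) (p : ℤ)
      have hTn := hT p hp (fun h => hpM (h.trans hNM)) n
      have hχu : χ u = ε (p : ZMod N) := by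
        show ε ((ZMod.unitsMap hNM u : (ZMod N)ˣ) : ZMod N) = _
        rw [ZMod.unitsMap_val, hu', ZMod.cast_natCast hNM]
      have hχm : χ (u * d) = χ u * χ d := by
        show ε ((ZMod.unitsMap hNM (u * d) : (ZMod N)ˣ) : ZMod N) = _
        rw [map_mul, Units.val_mul, map_mul]
      have hRu := hR u d p (by
        rw [ZMod.unitsMap_val, hu', ZMod.cast_natCast hℓM]
        push_cast
        rfl)
      have h2 := hGc d (p * n)
      have h4 := mul_mem_mV (hfV p) (hGc d n)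
      show _ + _ - qCoeff f p * _ ∈ mV V
      by_cases hpn : p ∣ n
      · rw [if_pos hpn] at hTn ⊢
        have h3 := mul_mem_mV hpV (hGc (u * d) (n / p))
        have h5 := mul_mem_mV (V.mul_mem _ _ (V.mul_mem _ _ (hχV u) (hχV d)) (hfV (n / p))) hRu
        have h6 := (mV V).add_mem ((mV V).sub_mem ((mV V).add_mem h2 h3) h4) h5
        rw [hχm] at h6
        rw [← hχu] at hTn
        convert h6 using 1
        push_cast
        linear_combination (χ d * e d) * hTn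
      · rw [if_neg hpn] at hTn ⊢
        have h6 := (mV V).sub_mem h2 h4
        convert h6 using 1
        linear_combination (χ d * e d) * hTn
    · intro d n
      rw [hsub]
      set m : ℤ := (g : SL(2, ℤ)) 1 1 with hm
      have hℓm : ¬ (ℓ : ℤ) ∣ m := by
        intro h
        have h1 := hunit (del M g) m (by
          rw [unitsMap_del, coe_del])
        exact h1 h
      have hm0 : (m : ℂ) ≠ 0 := by
        intro h0
        apply hℓm
        have : m = 0 := by exact_mod_cast h0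
        rw [this]
        exact dvd_zero _
      have hχg : χ (del M g) = ε (m : ZMod N) := by
        show ε ((ZMod.unitsMap hNM (del M g) : (ZMod N)ˣ) : ZMod N) = _
        rw [unitsMap_del, coe_del]
      have hχm : χ (del M g * d) = χ (del M g) * χ d := by
        show ε ((ZMod.unitsMap hNM (del M g * d) : (ZMod N)ˣ) : ZMod N) = _
        rw [map_mul, Units.val_mul, map_mul]
      have hRg := hR (del M g) d m (by rw [unitsMap_del, coe_del])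
      have hiV := inv_mem_V (V := V) hℓ hℓm
      have h2 := hGc (del M g * d) n
      have h3 := mul_mem_mV (V.mul_mem _ _ (hχV (del M g)) hiV) (hGc d n)
      have h4 := mul_mem_mV (V.mul_mem _ _ (V.mul_mem _ _ (V.mul_mem _ _ (hχV (del M g))
        (hχV d)) (hfV n)) hiV) hRg
      have h5 := (mV V).add_mem ((mV V).sub_mem h2 h3) h4
      show qCoeff (G.1 (del M g * d)) n - (ε (m : ZMod N) * (m : ℂ)⁻¹) * qCoeff (G.1 d) n ∈ mV V
      convert h5 using 1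
      rw [hχm, ← hχg]
      field_simp
      ring

theorem residue_intCast_inv {V : ValuationSubring ℂ} {m : ℤ} (h : (m : ℂ)⁻¹ ∈ V)
    (hm : (m : ℂ) ≠ 0) :
    IsLocalRing.residue V ⟨(m : ℂ)⁻¹, h⟩ = (m : IsLocalRing.ResidueField V)⁻¹ := by
  have h1 : (m : V) * ⟨(m : ℂ)⁻¹, h⟩ = 1 := by
    apply Subtype.ext
    push_cast
    exact mul_inv_cancel₀ hm
  have h2 := congrArg (IsLocalRing.residue V) h1
  rw [map_mul, map_one, map_intCast] at h2
  exact (inv_eq_of_mul_eq_one_right h2).symm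

/-- **The eigenclass modulo `ℓ` attached to a weight one eigenform.** -/
theorem exists_eigen {V : ValuationSubring ℂ} (hℓ : V.valuation (ℓ : ℂ) < 1)
    {E : (ZMod ℓ)ˣ → ℍ → ℂ} (hE : IsFamForm ℓ 1 E) (hEV : ∀ d n, qCoeff (E d) n ∈ V)
    (hE2 : ∀ d n, n ≠ 0 → V.valuation (qCoeff (E d) n) < 1)
    (hE0 : ∀ d : (ZMod ℓ)ˣ, V.valuation (((d : ZMod ℓ).val : ℂ) * qCoeff (E d) 0 - 1) < 1)
    (ε : DirichletCharacter ℂ N) (f : CuspForm (Gamma1 N) 1) (hf₁ : qCoeff f 1 = 1)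
    (hT : ∀ p : ℕ, p.Prime → ¬ p ∣ N → ∀ n : ℕ,
        qCoeff f (p * n) + ε (p : ZMod N) * (if p ∣ n then qCoeff f (n / p) else 0) =
          qCoeff f p * qCoeff f n)
    (hfV : ∀ n, qCoeff f n ∈ V)
    (hΓ : IsPM Γ M q) (hNq : N ∣ q) (hℓq : ℓ ∣ q) :
    ∃ F : Additive Γ →+ IsLocalRing.ResidueField V, F ∈ PE Γ _ ∧ F ≠ 0 ∧
      (∀ (p : ℕ) [Fact p.Prime] (hh : IsCong Γ M q) (hpM : ¬ p ∣ M) (σ : SL(2, ℤ))
        (hσ : σ ∈ Gamma0 M) (hqp : IsCoprime (q : ℤ) (p : ℤ)) (hσp : (q : ℤ) ∣ σ 1 1 - p) (γ),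
        (tdataG hh hpM σ hσ hqp hσp).H.hom _ F γ =
          IsLocalRing.residue V ⟨qCoeff f p, hfV p⟩ * F γ) ∧
      (∀ (g : SL(2, ℤ)) (_ : g ∈ Gamma0 M) (hg' : ∀ γ ∈ Γ, g * γ * g⁻¹ ∈ Γ) (γ),
        conjH g hg' F γ = IsLocalRing.residue V ⟨ε ((g 1 1 : ℤ) : ZMod N), char_mem_V ε _⟩ *
          ((g 1 1 : ℤ) : IsLocalRing.ResidueField V)⁻¹ * F γ) := by
  obtain ⟨F, hF, hF0, h⟩ := eigen_aux hℓ hE hEV hE2 hE0 ε f hf₁ hT hfV hΓ hNq hℓq
  refine ⟨F, hF, hF0, ?_, ?_⟩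
  · intro p hp hh hpM σ hσ hqp hσp γ
    have h1 := h (Sum.inl ⟨p, hp.out, hpM⟩) γ
    rw [ops_inl] at h1
    rw [tdataG_hom hΓ ⟨p, hp.out, hpM⟩ hh σ hσ hqp hσp]
    exact h1
  · intro g hg hg' γ
    have h1 := h (Sum.inr ⟨g, hg⟩) γ
    rw [ops_inr] at h1
    have hℓg : ¬ (ℓ : ℤ) ∣ g 1 1 := by
      intro h
      have h1 := (Int.natCast_dvd_natCast.2 (hℓq.trans hΓ.dvd)).trans
        (Fermat.Agent.TorsCmp.mem_Gamma0_iff.1 hg)
      have h2 := g.det_coe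
      rw [Matrix.det_fin_two] at h2
      have h3 : (ℓ : ℤ) ∣ 1 := by
        rw [← h2]
        exact dvd_sub (h.mul_left _) (h1.mul_left _)
      have h4 := Int.isUnit_iff.1 (isUnit_of_dvd_one h3)
      have h5 := hl.out.one_lt
      omega
    have hg0 : ((g 1 1 : ℤ) : ℂ) ≠ 0 := by
      intro h0
      apply hℓg
      have : g 1 1 = 0 := by exact_mod_cast h0
      rw [this]
      exact dvd_zero _
    have h2 : cV hℓ (hℓq.trans hΓ.dvd) ε (fun n => qCoeff f n) hfV (Sum.inr ⟨g, hg⟩) =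
        ⟨ε ((g 1 1 : ℤ) : ZMod N), char_mem_V ε _⟩ * ⟨((g 1 1 : ℤ) : ℂ)⁻¹, inv_mem_V hℓ hℓg⟩ := rfl
    rw [h2, map_mul, residue_intCast_inv _ hg0] at h1
    exact h1

end

end Fermat.Agent.DSE

end
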