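import Fermat.Agent.DSE.Per
import Fermat.Agent.WOne.Neben

/-!
# Weight one eigenforms and eigenclasses modulo `ℓ`
-/

set_option autoImplicit false
set_option linter.unusedSectionVars false
set_option linter.style.haveILetI false

noncomputable section

namespace Fermat.Agent.DSE

open Matrix.SpecialLinearGroup UpperHalfPlane CongruenceSubgroup ModularForm Filter
open ModularFormClass (qCoeff)
open Fermat.Agent.LG (PE mem_PE conjH conjH_apply conjH_mem IsCong TData tdataG)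
open Fermat.Agent.HeckeHom (HData)
open Fermat.Agent.WOne (lft del del_lft coe_del IsFamCusp IsFamForm IsFam dia famT)
open Fermat.Agent.IntStr (perSub)
open scoped MatrixGroups ModularForm Manifold Topology

/-! ### the maximal ideal -/

section Val

variable (V : ValuationSubring ℂ)

/-- elements of positive valuation -/
def mV : AddSubgroup ℂ where
  carrier := {x | V.valuation x < 1}
  add_mem' ha hb := V.valuation.map_add_lt ha hb
  zero_mem' := by
    show V.valuation 0 < 1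
    rw [map_zero]
    exact zero_lt_one
  neg_mem' {x} hx := by
    show V.valuation (-x) < 1
    rw [Valuation.map_neg]
    exact hx

variable {V}

theorem mem_mV {x : ℂ} : x ∈ mV V ↔ V.valuation x < 1 := Iff.rfl

theorem mV_le {x : ℂ} (hx : x ∈ mV V) : x ∈ V := (V.valuation_le_one_iff x).1 (mem_mV.1 hx).le

theorem mul_mem_mV {v x : ℂ} (hv : v ∈ V) (hx : x ∈ mV V) : v * x ∈ mV V := by
  rw [mem_mV, map_mul]
  refine (mul_le_mul' ((V.valuation_le_one_iff v).2 hv) le_rfl).trans_lt ?_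
  rw [one_mul]
  exact hx

theorem intCast_mem_V (m : ℤ) : (m : ℂ) ∈ V := intCast_mem V m

variable {ℓ : ℕ} [hl : Fact ℓ.Prime] (hℓ : V.valuation (ℓ : ℂ) < 1)

include hℓ

theorem intCast_mem_mV {m : ℤ} (h : (ℓ : ℤ) ∣ m) : (m : ℂ) ∈ mV V := by
  obtain ⟨k, rfl⟩ := h
  push_cast
  rw [mul_comm]
  exact mul_mem_mV (intCast_mem_V k) hℓ

theorem val_intCast {m : ℤ} (h : ¬ (ℓ : ℤ) ∣ m) : V.valuation (m : ℂ) = 1 := by
  refine le_antisymm ((V.valuation_le_one_iff _).2 (intCast_mem_V m)) ?_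
  by_contra hcon
  push Not at hcon
  have hc : IsCoprime (ℓ : ℤ) m := (Nat.prime_iff_prime_int.1 hl.out).coprime_iff_not_dvd.2 h
  obtain ⟨a, b, hab⟩ := hc
  have h1 : (1 : ℂ) ∈ mV V := by
    have h2 : (1 : ℂ) = (a : ℂ) * (ℓ : ℂ) + (b : ℂ) * (m : ℂ) := by exact_mod_cast hab.symm
    rw [h2]
    exact (mV V).add_mem (mul_mem_mV (intCast_mem_V a) hℓ)
      (mul_mem_mV (intCast_mem_V b) hcon)
  rw [mem_mV, map_one] at h1
  exact lt_irrefl _ h1

theorem inv_mem_V {m : ℤ} (h : ¬ (ℓ : ℤ) ∣ m) : (m : ℂ)⁻¹ ∈ V := by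
  rw [← V.valuation_le_one_iff, map_inv₀, val_intCast hℓ h, inv_one]

theorem cancel_mV {m : ℤ} (h : ¬ (ℓ : ℤ) ∣ m) {x : ℂ} (hx : (m : ℂ) * x ∈ mV V) : x ∈ mV V := by
  rw [mem_mV, map_mul, val_intCast hℓ h, one_mul] at hx
  exact hx

end Val

theorem char_mem_V {V : ValuationSubring ℂ} {N : ℕ} [NeZero N] (ε : DirichletCharacter ℂ N)
    (a : ZMod N) : ε a ∈ V := by
  by_cases ha : IsUnit a
  · obtain ⟨u, rfl⟩ := ha
    have h1 : (ε u) ^ Fintype.card (ZMod N)ˣ = 1 := by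
      rw [← map_pow, ← Units.val_pow_eq_pow_val, pow_card_eq_one, Units.val_one, map_one]
    have h2 : V.valuation (ε u) ^ Fintype.card (ZMod N)ˣ = 1 := by rw [← map_pow, h1, map_one]
    rw [← V.valuation_le_one_iff]
    exact ((pow_eq_one_iff.1 h2).resolve_right Fintype.card_ne_zero).le
  · rw [MulChar.map_nonunit ε ha]
    exact V.zero_mem

/-! ### products of power series -/

theorem coeff_mul_sub {V : ValuationSubring ℂ} {A B : PowerSeries ℂ}
    (hA : ∀ n, PowerSeries.coeff n A ∈ V) (hB : ∀ n, n ≠ 0 → PowerSeries.coeff n B ∈ mV V) (n : ℕ) :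
    PowerSeries.coeff n (A * B) - PowerSeries.coeff n A * PowerSeries.coeff 0 B ∈ mV V := by
  have h1 : PowerSeries.coeff n (A * B) - PowerSeries.coeff n A * PowerSeries.coeff 0 B =
      PowerSeries.coeff n (A * (B - PowerSeries.C (PowerSeries.coeff 0 B))) := by
    rw [mul_sub, map_sub, PowerSeries.coeff_mul_C]
  rw [h1, PowerSeries.coeff_mul]
  refine (mV V).sum_mem fun z _ => mul_mem_mV (hA _) ?_
  rw [map_sub, PowerSeries.coeff_C]
  by_cases h2 : z.2 = 0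
  · rw [if_pos h2, h2, sub_self]
    exact (mV V).zero_mem
  · rw [if_neg h2, sub_zero]
    exact hB _ h2

/-! ### level raising -/

section Lvl

variable {N M : ℕ} {k : ℤ}

/-- pull-back of a family -/
def pb (h : N ∣ M) (F : (ZMod N)ˣ → ℍ → ℂ) : (ZMod M)ˣ → ℍ → ℂ := fun d => F (ZMod.unitsMap h d)

theorem gamma0_le (h : N ∣ M) : Gamma0 M ≤ Gamma0 N := by
  intro γ hγ
  rw [Fermat.Agent.TorsCmp.mem_Gamma0_iff] at hγ ⊢
  exact (Int.natCast_dvd_natCast.2 h).trans hγ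

theorem unitsMap_del (h : N ∣ M) (γ : Gamma0 M) :
    ZMod.unitsMap h (del M γ) = del N ⟨γ, gamma0_le h γ.2⟩ := by
  apply Units.ext
  rw [ZMod.unitsMap_val, coe_del, coe_del]
  exact ZMod.cast_intCast h _

theorem isFam_pb (h : N ∣ M) {F : (ZMod N)ˣ → ℍ → ℂ} (hF : IsFam N k F) :
    IsFam M k (pb h F) := by
  intro γ d
  rw [pb, pb, map_mul, unitsMap_del]
  exact hF ⟨γ, gamma0_le h γ.2⟩ _

theorem isFamForm_pb (h : N ∣ M) {F : (ZMod N)ˣ → ℍ → ℂ} (hF : IsFamForm N k F) :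
    IsFamForm M k (pb h F) where
  fam := isFam_pb h hF.fam
  holo _ := hF.holo _
  bdd _ γ := hF.bdd _ γ

theorem isFamCusp_pb (h : N ∣ M) {F : (ZMod N)ˣ → ℍ → ℂ} (hF : IsFamCusp N k F) :
    IsFamCusp M k (pb h F) where
  fam := isFam_pb h hF.fam
  holo _ := hF.holo _
  zero _ γ := hF.zero _ γ

theorem slash_neg_two (f : ℍ → ℂ) (γ : SL(2, ℤ)) : f ∣[(2 : ℤ)] (-γ) = f ∣[(2 : ℤ)] γ := by
  funext τ
  rw [ModularForm.SL_slash_apply, ModularForm.SL_slash_apply]
  have h1 : (-γ) • τ = γ • τ := by simp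
  have h2 : denom (-γ : SL(2, ℤ)) τ = - denom (γ : SL(2, ℤ)) τ := by
    simp [denom]
    ring
  rw [h1, h2]
  congr 1
  exact Even.neg_zpow (by decide) _

end Lvl

/-! ### coefficients in the maximal ideal -/

section Coeff

variable {Γ : Subgroup SL(2, ℤ)} {M : ℕ} [NeZero M]

theorem SF_per {F : (ZMod M)ˣ → ℍ → ℂ} (hF : F ∈ SF Γ M) (d : (ZMod M)ˣ) : F d ∈ perSub :=
  hF.1.isFamForm.mem_perSub d

/-- families with coefficients in the maximal ideal -/
def WV (V : ValuationSubring ℂ) (Γ : Subgroup SL(2, ℤ)) (M : ℕ) [NeZero M] :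
    AddSubgroup (SF Γ M) where
  carrier := {F | ∀ d n, qCoeff (F.1 d) n ∈ mV V}
  add_mem' {F G} hF hG := by
    intro d n
    have h1 : qCoeff ((F + G).1 d) n = qCoeff (F.1 d) n + qCoeff (G.1 d) n :=
      WOne.qCoeff_add (SF_per F.2 d) (SF_per G.2 d) n
    rw [h1]
    exact (mV V).add_mem (hF d n) (hG d n)
  zero_mem' := by
    intro d n
    have h1 : qCoeff ((0 : SF Γ M).1 d) n = 0 := by
      have h2 := WOne.qCoeff_smul (SF_per (0 : SF Γ M).2 d) 0 n
      rw [zero_smul, zero_mul] at h2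
      exact h2
    rw [h1]
    exact (mV V).zero_mem
  neg_mem' {F} hF := by
    intro d n
    have h1 : qCoeff ((-F).1 d) n = (-1 : ℂ) * qCoeff (F.1 d) n := by
      rw [← WOne.qCoeff_smul (SF_per F.2 d), _root_.neg_smul, one_smul]
      rfl
    rw [h1, neg_one_mul]
    exact (mV V).neg_mem (hF d n)

theorem qCoeff_sub {f g : ℍ → ℂ} (hf : f ∈ perSub) (hg : g ∈ perSub) (n : ℕ) :
    qCoeff (f - g) n = qCoeff f n - qCoeff g n := by
  have h1 : f - g = f + (-1 : ℂ) • g := by rw [_root_.neg_smul, one_smul, sub_eq_add_neg]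
  rw [h1, WOne.qCoeff_add hf (perSub.smul_mem hg _), WOne.qCoeff_smul hg]
  ring

theorem qCoeff_famT {F : (ZMod M)ˣ → ℍ → ℂ} (hF : ∀ d, F d ∈ perSub) {p : ℕ} (hp : p ≠ 0)
    (u d : (ZMod M)ˣ) (n : ℕ) :
    qCoeff (famT 2 p u F d) n = qCoeff (F d) (p * n) +
      (if p ∣ n then (p : ℂ) * qCoeff (F (u * d)) (n / p) else 0) := by
  have h1 := UpperHalfPlane.qCoeff_heckeU (hF d).1 (hF d).2.1 (hF d).2.2 2 hp n
  rw [coeffHeckeU_apply, mul_comm n p] at h1
  rw [famT, WOne.qCoeff_add (WOne.heckeU_mem_perSub (hF d) 2 p)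
    (WOne.slashDiag_mem_perSub (hF _) 2 p), h1, WOne.qCoeff_slashDiag (hF _) 2 hp]
  have h2 : (2 : ℤ) - 1 = 1 := by norm_num
  rw [h2, zpow_one]

theorem WV_smul (V : ValuationSubring ℂ) {v : ℂ} (hv : v ∈ V) {F : SF Γ M} (hF : F ∈ WV V Γ M) :
    v • F ∈ WV V Γ M := by
  intro d n
  have h1 : qCoeff ((v • F).1 d) n = v * qCoeff (F.1 d) n := WOne.qCoeff_smul (SF_per F.2 d) v n
  rw [h1]
  exact mul_mem_mV hv (hF d n)

theorem WV_tOp (V : ValuationSubring ℂ) (i : Idx M) {F : SF Γ M} (hF : F ∈ WV V Γ M) :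
    tOp i F ∈ WV V Γ M := by
  rcases i with i | g
  · intro d n
    have h1 : (tOp (Sum.inl i) F).1 d = famT 2 i.1 (un i) F.1 d := rfl
    rw [h1, qCoeff_famT (SF_per F.2) i.2.1.ne_zero]
    refine (mV V).add_mem (hF _ _) ?_
    split_ifs
    · have h2 : ((i.1 : ℕ) : ℂ) = ((i.1 : ℤ) : ℂ) := by push_cast; rfl
      rw [h2]
      exact mul_mem_mV (intCast_mem_V _) (hF _ _)
    · exact (mV V).zero_mem
  · intro d n
    exact hF _ n

end Coeff

end Fermat.Agent.DSE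

end
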