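import Fermat.Agent.DSE.Comm
import Fermat.Agent.WOne.Family

/-!
# The Hecke operators and the diamond operators as natural operators
-/

set_option autoImplicit false
set_option linter.unusedSectionVars false
set_option linter.style.haveILetI false

noncomputable section

namespace Fermat.Agent.DSE

open Matrix.SpecialLinearGroup UpperHalfPlane CongruenceSubgroup
open Fermat.Agent.LG (PE mem_PE conjH conjH_apply conjH_mem compHD compHD_hom IsCong
  TData tdataG)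
open Fermat.Agent.HeckeHom (HData)
open Fermat.Agent.WOne (lft del del_lft coe_del)
open scoped MatrixGroups

section

variable {Γ : Subgroup SL(2, ℤ)} {M q : ℕ}

/-- the primes not dividing `M` -/
abbrev Pr (M : ℕ) : Type := {p : ℕ // p.Prime ∧ ¬ p ∣ M}

/-- the class of a prime -/
def un {M : ℕ} (i : Pr M) : (ZMod M)ˣ :=
  ZMod.unitOfCoprime i.1 ((Nat.Prime.coprime_iff_not_dvd i.2.1).2 i.2.2)

theorem coe_un {M : ℕ} (i : Pr M) : ((un i : (ZMod M)ˣ) : ZMod M) = (i.1 : ZMod M) :=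
  ZMod.coe_unitOfCoprime _ _

/-- the diamond matrix -/
def sg {M : ℕ} (i : Pr M) : SL(2, ℤ) := lft M (un i)

theorem sg_mem {M : ℕ} (i : Pr M) : sg i ∈ Gamma0 M := (lft M (un i)).2

theorem sg_dvd {M : ℕ} (i : Pr M) : (M : ℤ) ∣ (sg i) 1 1 - i.1 := by
  have h1 : (((sg i) 1 1 : ℤ) : ZMod M) = (i.1 : ZMod M) := by
    rw [← coe_un, ← del_lft (un i), coe_del]
    rfl
  rw [← ZMod.intCast_zmod_eq_zero_iff_dvd]
  push_cast
  rw [h1, sub_self]

theorem cop {M : ℕ} (hq : q ∣ M) (i : Pr M) : IsCoprime (q : ℤ) (i.1 : ℤ) := by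
  rw [Nat.isCoprime_iff_coprime]
  exact (((Nat.Prime.coprime_iff_not_dvd i.2.1).2 i.2.2).symm).coprime_dvd_left hq

instance fact_Pr {M : ℕ} (i : Pr M) : Fact i.1.Prime := ⟨i.2.1⟩

/-- the data of `T_p` -/
def dataP (hΓ : IsPM Γ M q) (i : Pr M) : HData Γ Γ :=
  (tdataG hΓ.isCong i.2.2 (sg i) (sg_mem i) (cop hΓ.dvd i)
    ((Int.natCast_dvd_natCast.2 hΓ.dvd).trans (sg_dvd i))).H

theorem full_dataP (hΓ : IsPM Γ M q) (i : Pr M) :
    Full M q (i.1 : ℤ) (i.1 : ℤ) (dataP hΓ i) :=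
  full_tdataG hΓ i.2.2 (sg i) (sg_mem i) _ _

/-- the operator does not depend on the choice -/
theorem tdataG_hom (hΓ : IsPM Γ M q) (i : Pr M) (hh : IsCong Γ M q) (σ : SL(2, ℤ))
    (hσ : σ ∈ Gamma0 M) (hqp : IsCoprime (q : ℤ) (i.1 : ℤ)) (hσp : (q : ℤ) ∣ σ 1 1 - i.1)
    (A : Type*) [AddCommGroup A] :
    (tdataG hh i.2.2 σ hσ hqp hσp).H.hom A = (dataP hΓ i).hom A :=
  (full_tdataG hΓ i.2.2 σ hσ hqp hσp).hom_eq (full_dataP hΓ i) A

theorem commPP (hΓ : IsPM Γ M q) (i j : Pr M) {A : Type*} [AddCommGroup A]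
    (x : Additive Γ →+ A) :
    (dataP hΓ i).hom A ((dataP hΓ j).hom A x) = (dataP hΓ j).hom A ((dataP hΓ i).hom A x) := by
  by_cases h : i = j
  · subst h; rfl
  have key : ∀ i j : Pr M, i ≠ j → ¬ (i.1 : ℤ) ∣ (j.1 : ℤ) := by
    intro i j h h1
    apply h
    have h2 : i.1 ∣ j.1 := by exact_mod_cast h1
    exact Subtype.ext ((Nat.prime_dvd_prime_iff_eq i.2.1 j.2.1).1 h2)
  have h1 := full_comp (full_dataP hΓ j) hΓ i.2.2 (sg i) (sg_mem i) (cop hΓ.dvd i)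
    ((Int.natCast_dvd_natCast.2 hΓ.dvd).trans (sg_dvd i)) (key i j h)
  have h2 := full_comp (full_dataP hΓ i) hΓ j.2.2 (sg j) (sg_mem j) (cop hΓ.dvd j)
    ((Int.natCast_dvd_natCast.2 hΓ.dvd).trans (sg_dvd j)) (key j i (Ne.symm h))
  rw [mul_comm (i.1 : ℤ)] at h2
  have h3 := h1.hom_eq h2 A
  have h4 := DFunLike.congr_fun h3 x
  rw [compHD_hom, compHD_hom] at h4
  exact h4

theorem commPC (hΓ : IsPM Γ M q) (i : Pr M) {g : SL(2, ℤ)} (hg : g ∈ Gamma0 M) {A : Type*}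
    [AddCommGroup A] (x : Additive Γ →+ A) :
    (dataP hΓ i).hom A (conjH g (hΓ.conj hg) x) = conjH g (hΓ.conj hg) ((dataP hΓ i).hom A x) := by
  have hi : ¬ (i.1 : ℤ) ∣ 1 := by
    intro h
    have h1 := Int.isUnit_iff.1 (isUnit_of_dvd_one h)
    have h2 := i.2.1.one_lt
    omega
  have h1 := full_comp (full_dataC hΓ hg) hΓ i.2.2 (sg i) (sg_mem i) (cop hΓ.dvd i)
    ((Int.natCast_dvd_natCast.2 hΓ.dvd).trans (sg_dvd i)) hi
  have h2 := full_compC (full_dataP hΓ i) hΓ hg (uniq_compC (hΓ.conj hg))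
  rw [mul_one, mul_comm (i.1 : ℤ)] at h2
  rw [one_mul] at h1
  have h3 := h1.hom_eq h2 A
  have h4 := DFunLike.congr_fun h3 x
  rw [compHD_hom, compHD_hom, dataC_hom, dataC_hom] at h4
  exact h4

theorem commCC (hΓ : IsPM Γ M q) {g h : SL(2, ℤ)} (hg : g ∈ Gamma0 M) (hh : h ∈ Gamma0 M)
    {A : Type*} [AddCommGroup A] (x : Additive Γ →+ A) :
    conjH h (hΓ.conj hh) (conjH g (hΓ.conj hg) x) =
      conjH g (hΓ.conj hg) (conjH h (hΓ.conj hh) x) := by
  have h1 := full_compC (full_dataC hΓ hg) hΓ hh (uniq_compC (hΓ.conj hh))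
  have h2 := full_compC (full_dataC hΓ hh) hΓ hg (uniq_compC (hΓ.conj hg))
  rw [mul_comm (h 1 1)] at h2
  have h3 := h1.hom_eq h2 A
  have h4 := DFunLike.congr_fun h3 x
  rw [compHD_hom, compHD_hom, dataC_hom, dataC_hom, dataC_hom, dataC_hom] at h4
  exact h4

/-- the index set -/
abbrev Idx (M : ℕ) : Type := Pr M ⊕ Gamma0 M

/-- the natural operators -/
def ops (hΓ : IsPM Γ M q) : Idx M → NatOp Γ
  | Sum.inl i =>
    { op := fun A _ => (dataP hΓ i).hom A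
      mem := fun _ _ _ hx => hom_mem_PE hx
      nat := fun _ _ _ _ f x => HData.hom_comp _ f x }
  | Sum.inr g =>
    { op := fun A _ => conjH g (hΓ.conj g.2)
      mem := fun _ _ _ hx => conjH_mem _ _ hx
      nat := fun _ _ _ _ _ _ => rfl }

theorem ops_inl (hΓ : IsPM Γ M q) (i : Pr M) {A : Type} [AddCommGroup A] (x : Additive Γ →+ A) :
    (ops hΓ (Sum.inl i)).op A x = (dataP hΓ i).hom A x := rfl

theorem ops_inr (hΓ : IsPM Γ M q) (g : Gamma0 M) {A : Type} [AddCommGroup A]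
    (x : Additive Γ →+ A) :
    (ops hΓ (Sum.inr g)).op A x = conjH (g : SL(2, ℤ)) (hΓ.conj g.2) x := rfl

theorem ops_comm (hΓ : IsPM Γ M q) (i j : Idx M) {A : Type} [AddCommGroup A]
    (x : Additive Γ →+ A) :
    (ops hΓ i).op A ((ops hΓ j).op A x) = (ops hΓ j).op A ((ops hΓ i).op A x) := by
  rcases i with i | g <;> rcases j with j | h
  · exact commPP hΓ i j x
  · exact commPC hΓ i h.2 x
  · exact (commPC hΓ j g.2 x).symm
  · exact commCC hΓ h.2 g.2 x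

end

end Fermat.Agent.DSE

end
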