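import Fermat.Agent.DSE.Ops
import Fermat.Agent.WOne.FamForm
import Fermat.Agent.Period.Equivariant

/-!
# Periods of families of cusp forms of weight two
-/

set_option autoImplicit false
set_option linter.unusedSectionVars false
set_option linter.style.haveILetI false

noncomputable section

namespace Fermat.Agent.DSE

open Matrix.SpecialLinearGroup UpperHalfPlane CongruenceSubgroup ModularForm Filter
open Fermat.Agent.LG (PE mem_PE conjH conjH_apply conjH_mem IsCong TData tdataG repS sx sx_mem)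
open Fermat.Agent.HeckeHom (HData)
open Fermat.Agent.WOne (lft del del_lft coe_del IsFamCusp IsFam dia famT)
open Fermat.Agent.Period
open scoped MatrixGroups ModularForm Manifold Topology

/-- A cusp form for `Γ` whose periods vanish is zero. -/
theorem eq_zero_of_per {Γ : Subgroup (GL (Fin 2) ℝ)} [Γ.IsArithmetic] (f : CuspForm Γ 2)
    (h : ∀ γ : SL(2, ℤ), mapGL ℝ γ ∈ Γ → per (f : ℍ → ℂ) (mapGL ℝ γ) = 0) : f = 0 := by
  have hadm := adm_cuspForm f
  have hsm := fun γ τ => prim_SL_smul hadm γ τ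
  have hslash : ∀ γ : SL(2, ℤ), (prim (f : ℍ → ℂ)) ∣[(0 : ℤ)] (mapGL ℝ γ) =
      fun τ => prim ((f : ℍ → ℂ) ∣[(2:ℤ)] (mapGL ℝ γ)) τ + per (f : ℍ → ℂ) (mapGL ℝ γ) := by
    intro γ
    funext τ
    rw [ModularForm.slash_apply]
    simp only [σ, det_mapGL_pos γ, if_true]
    have h1 := hsm γ τ
    simp [ContinuousAlgEquiv.refl_apply]
    exact h1
  let F : ModularForm (Γ ⊓ 𝒮ℒ) 0 :=
    { toFun := prim (f : ℍ → ℂ)
      slash_action_eq' := by
        intro g hg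
        obtain ⟨hg1, ⟨γ, rfl⟩⟩ := hg
        rw [hslash, SlashInvariantFormClass.slash_action_eq f _ hg1, h γ hg1]
        funext τ
        rw [add_zero]
      holo' := hadm.decays.prim.holo
      bdd_at_cusps' := by
        intro c hc
        rw [Subgroup.IsArithmetic.isCusp_iff_isCusp_SL2Z] at hc
        rw [OnePoint.isBoundedAt_iff_forall_SL2Z hc]
        intro γ _
        have h1 : (prim (f : ℍ → ℂ)) ∣[(0 : ℤ)] γ =
            fun τ => prim ((f : ℍ → ℂ) ∣[(2:ℤ)] (mapGL ℝ γ)) τ + per (f : ℍ → ℂ) (mapGL ℝ γ) :=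
          hslash γ
        rw [h1]
        have h2 := (tendsto_prim_slash f γ).add_const (per (f : ℍ → ℂ) (mapGL ℝ γ))
        exact h2.isBigO_one ℝ }
  obtain ⟨c, hc⟩ := ModularForm.eq_const_of_weight_zero F
  have hc' : prim (f : ℍ → ℂ) = Function.const ℍ c := hc
  have h0 := tendsto_prim_cuspForm f
  rw [hc'] at h0
  have h1 : c = 0 := tendsto_nhds_unique tendsto_const_nhds h0
  have h2 : prim (f : ℍ → ℂ) = 0 := by rw [hc', h1]; rfl
  have h3 := eq_zero_of_prim_eq_zero hadm.decays h2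
  exact DFunLike.ext _ _ fun τ => congrFun h3 τ

section Fam

variable {Γ : Subgroup SL(2, ℤ)} {M q : ℕ} [NeZero M]

/-- Families invariant under `Γ`. -/
def SF (Γ : Subgroup SL(2, ℤ)) (M : ℕ) : Submodule ℂ ((ZMod M)ˣ → ℍ → ℂ) where
  carrier := {F | IsFamCusp M 2 F ∧ ∀ γ : Gamma0 M, (γ : SL(2, ℤ)) ∈ Γ → ∀ d, F (d * del M γ) = F d}
  add_mem' {F G} hF hG := ⟨hF.1.add hG.1, fun γ hγ d => by
    rw [Pi.add_apply, Pi.add_apply, hF.2 γ hγ, hG.2 γ hγ]⟩
  zero_mem' := by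
    refine ⟨⟨fun γ d => ?_, fun d => mdifferentiable_const, fun d γ => ?_⟩, fun _ _ _ => rfl⟩
    · rw [Pi.zero_apply, Pi.zero_apply, SlashAction.zero_slash]
    · rw [Pi.zero_apply, SlashAction.zero_slash]
      exact Filter.zero_zeroAtFilter _
  smul_mem' c F hF := ⟨hF.1.smul c, fun γ hγ d => by
    rw [Pi.smul_apply, Pi.smul_apply, hF.2 γ hγ]⟩

theorem SF_slash (hle : Γ ≤ Gamma0 M) {F : (ZMod M)ˣ → ℍ → ℂ} (hF : F ∈ SF Γ M)
    {γ : SL(2, ℤ)} (hγ : γ ∈ Γ) (d : (ZMod M)ˣ) : F d ∣[(2 : ℤ)] (mapGL ℝ γ) = F d := by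
  have h1 := hF.1.fam ⟨γ, hle hγ⟩ d
  rw [hF.2 ⟨γ, hle hγ⟩ hγ] at h1
  exact h1

theorem SF_adm {F : (ZMod M)ˣ → ℍ → ℂ} (hF : F ∈ SF Γ M) (d : (ZMod M)ˣ) : Adm (F d) :=
  adm_cuspForm (hF.1.toCusp d)

/-- cusp forms for `Γ` -/
def SF_cusp [Γ.FiniteIndex] (hle : Γ ≤ Gamma0 M) {F : (ZMod M)ˣ → ℍ → ℂ} (hF : F ∈ SF Γ M)
    (d : (ZMod M)ˣ) : CuspForm (Γ : Subgroup (GL (Fin 2) ℝ)) 2 where
  toFun := F d
  slash_action_eq' := by
    rintro _ ⟨γ, hγ, rfl⟩
    exact SF_slash hle hF hγ d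
  holo' := hF.1.holo d
  zero_at_cusps' hc := hF.1.isZeroAt d (by
    rwa [Subgroup.IsArithmetic.isCusp_iff_isCusp_SL2Z] at hc)

/-- the period homomorphism -/
def perHom (hle : Γ ≤ Gamma0 M) (F : SF Γ M) : Additive Γ →+ ℂ :=
  AddMonoidHom.mk' (fun γ => per (F.1 1) (mapGL ℝ ((Additive.toMul γ : Γ) : SL(2, ℤ)))) (by
    intro γ δ
    rw [toMul_add, Subgroup.coe_mul, per_mul_SL (SF_adm F.2 1),
      SF_slash hle F.2 (Additive.toMul γ).2])

theorem perHom_apply (hle : Γ ≤ Gamma0 M) (F : SF Γ M) (γ : Γ) :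
    perHom hle F (Additive.ofMul γ) = per (F.1 1) (mapGL ℝ (γ : SL(2, ℤ))) := rfl

/-- the period map -/
def perMap (hle : Γ ≤ Gamma0 M) : SF Γ M →+ (Additive Γ →+ ℂ) :=
  AddMonoidHom.mk' (perHom hle) (by
    intro F G
    refine AddMonoidHom.ext fun γ => ?_
    obtain ⟨γ, rfl⟩ := Additive.ofMul.surjective γ
    rw [AddMonoidHom.add_apply, perHom_apply, perHom_apply, perHom_apply]
    exact per_add (SF_adm F.2 1).decays (SF_adm G.2 1).decays (SF_adm F.2 1 _)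
      (SF_adm G.2 1 _))

theorem perMap_apply (hle : Γ ≤ Gamma0 M) (F : SF Γ M) (γ : Γ) :
    perMap hle F (Additive.ofMul γ) = per (F.1 1) (mapGL ℝ (γ : SL(2, ℤ))) := rfl

theorem perMap_mem [Γ.FiniteIndex] (hle : Γ ≤ Gamma0 M) (F : SF Γ M) :
    perMap hle F ∈ PE Γ ℂ := by
  refine ⟨fun γ hγ => ?_, fun γ τ hγ => ?_⟩
  · rw [perMap_apply]
    exact per_parabolic (SF_cusp hle F.2 1) (Subgroup.mem_map_of_mem _ γ.2) hγ
  · rw [perMap_apply]
    have h1 := prim_SL_smul (SF_adm F.2 1) γ τ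
    rw [hγ, SF_slash hle F.2 γ.2] at h1
    exact left_eq_add.1 h1

theorem perMap_injective [Γ.FiniteIndex] (hle : Γ ≤ Gamma0 M) :
    Function.Injective (perMap hle) := by
  rw [injective_iff_map_eq_zero]
  intro F hF
  have h1 : SF_cusp hle F.2 1 = 0 := by
    apply eq_zero_of_per
    rintro γ ⟨δ, hδ, hδγ⟩
    have h2 : δ = γ := Fermat.Agent.HeckeHom.mapGL_inj hδγ
    subst h2
    have h3 := DFunLike.congr_fun hF (Additive.ofMul (⟨δ, hδ⟩ : Γ))
    exact h3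
  have h2 : F.1 1 = 0 := congrArg (fun f : CuspForm (Γ : Subgroup (GL (Fin 2) ℝ)) 2 =>
    (f : ℍ → ℂ)) h1
  apply Subtype.ext
  funext d
  rw [F.2.1.fam.eq_fam d, h2, WOne.fam, SlashAction.zero_slash]
  rfl

/-! ### the operators -/

/-- the diamond operators on families -/
def tDia (u : (ZMod M)ˣ) : Module.End ℂ (SF Γ M) where
  toFun F := ⟨dia u F.1, F.2.1.dia u, fun γ hγ d => by
    rw [dia, dia, ← mul_assoc, F.2.2 γ hγ]⟩
  map_add' F G := rfl
  map_smul' c F := rfl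

theorem coe_tDia (u : (ZMod M)ˣ) (F : SF Γ M) : (tDia u F).1 = dia u F.1 := rfl

theorem perMap_tDia (hΓ : IsPM Γ M q) (g : Gamma0 M) (F : SF Γ M) :
    perMap hΓ.le (tDia (del M g) F) = conjH (g : SL(2, ℤ)) (hΓ.conj g.2) (perMap hΓ.le F) := by
  refine AddMonoidHom.ext fun γ => ?_
  obtain ⟨γ, rfl⟩ := Additive.ofMul.surjective γ
  rw [conjH_apply, perMap_apply, perMap_apply, coe_tDia]
  have hadm := SF_adm F.2 1
  have h1 : dia (del M g) F.1 1 = F.1 1 ∣[(2 : ℤ)] (mapGL ℝ (g : SL(2, ℤ))) := by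
    rw [dia, mul_one, ← one_mul (del M g)]
    exact (F.2.1.fam g 1).symm
  rw [h1]
  have h2 := per_mul_SL hadm g γ
  have h3 := per_mul_SL hadm ((g : SL(2, ℤ)) * γ * (g : SL(2, ℤ))⁻¹) g
  rw [SF_slash hΓ.le F.2 (hΓ.conj g.2 γ γ.2), inv_mul_cancel_right, h2] at h3
  exact add_left_cancel (h3.trans (add_comm _ _))

theorem famT_add (k : ℤ) (p : ℕ) (u : (ZMod M)ˣ) (F G : (ZMod M)ˣ → ℍ → ℂ) :
    famT k p u (F + G) = famT k p u F + famT k p u G := by
  funext d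
  rw [famT, Pi.add_apply, Pi.add_apply, Pi.add_apply, heckeU_add, SlashAction.add_slash, famT, famT]
  abel

theorem famT_smul (k : ℤ) (p : ℕ) (u : (ZMod M)ˣ) (c : ℂ) (F : (ZMod M)ˣ → ℍ → ℂ) :
    famT k p u (c • F) = c • famT k p u F := by
  funext d
  rw [famT, Pi.smul_apply, Pi.smul_apply, Pi.smul_apply, heckeU_smul,
    slash_const_smul _ _ (det_heckeDiagMatrix_pos p), famT, smul_add]

/-- the Hecke operators on families -/
def tT (i : Pr M) : Module.End ℂ (SF Γ M) where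
  toFun F := ⟨famT 2 i.1 (un i) F.1, F.2.1.famT i.2.1 i.2.2 (coe_un i), fun γ hγ d => by
    rw [famT, famT, F.2.2 γ hγ, ← mul_assoc, F.2.2 γ hγ]⟩
  map_add' F G := Subtype.ext (famT_add _ _ _ _ _)
  map_smul' c F := Subtype.ext (famT_smul _ _ _ _ _)

theorem coe_tT (i : Pr M) (F : SF Γ M) : (tT i F).1 = famT 2 i.1 (un i) F.1 := rfl

theorem per_sum {ι : Type*} (s : Finset ι) {ψ : ι → ℍ → ℂ} {g : GL (Fin 2) ℝ}
    (h : ∀ i ∈ s, Decays (ψ i)) (h' : ∀ i ∈ s, Decays (ψ i ∣[(2 : ℤ)] g)) :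
    per (∑ i ∈ s, ψ i) g = ∑ i ∈ s, per (ψ i) g := by
  rw [per, prim_sum s h, SlashAction.sum_slash, prim_sum s h', Finset.sum_apply, Finset.sum_apply,
    ← Finset.sum_sub_distrib]
  rfl

theorem det_heckeRep_pos {p : ℕ} (x : OnePoint (ZMod p)) :
    0 < (P2MW.S_ModularForm_heckeT_slash_eq_self_of_mem_Gamma0.ModularForm.HeckeSlashInvariance.heckeRep
      p x).det.val := by
  induction x using OnePoint.rec with
  | infty => exact det_heckeDiagMatrix_pos p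
  | coe j => exact det_heckeMatrix_pos p _

theorem heckeRep_low {p : ℕ} (hp : p ≠ 0) (x : OnePoint (ZMod p)) :
    (P2MW.S_ModularForm_heckeT_slash_eq_self_of_mem_Gamma0.ModularForm.HeckeSlashInvariance.heckeRep
      p x) 1 0 = 0 := by
  induction x using OnePoint.rec with
  | infty =>
    show ((heckeDiagMatrix p : GL (Fin 2) ℝ) : Matrix (Fin 2) (Fin 2) ℝ) 1 0 = 0
    rw [val_heckeDiagMatrix hp]
    rfl
  | coe j =>
    show ((heckeMatrix p j.val : GL (Fin 2) ℝ) : Matrix (Fin 2) (Fin 2) ℝ) 1 0 = 0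
    rw [val_heckeMatrix hp]
    rfl

theorem term_eq (i : Pr M) {F : (ZMod M)ˣ → ℍ → ℂ} (hF : IsFam M 2 F) (x : OnePoint (ZMod i.1)) :
    WOne.term 2 i.1 (un i) F 1 x = F 1 ∣[(2 : ℤ)] (repS (sg i) x) := by
  rw [repS, SlashAction.slash_mul]
  induction x using OnePoint.rec with
  | infty =>
    show F (un i * 1) ∣[(2 : ℤ)] heckeDiagMatrix i.1 =
      (F 1 ∣[(2 : ℤ)] (mapGL ℝ (sg i))) ∣[(2 : ℤ)] heckeDiagMatrix i.1
    have h1 : F 1 ∣[(2 : ℤ)] (mapGL ℝ (sg i)) = F (1 * del M (lft M (un i))) :=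
      hF (lft M (un i)) 1
    rw [h1, del_lft, mul_comm]
  | coe j =>
    show F 1 ∣[(2 : ℤ)] heckeMatrix i.1 j.val =
      (F 1 ∣[(2 : ℤ)] (mapGL ℝ (1 : SL(2, ℤ)))) ∣[(2 : ℤ)] heckeMatrix i.1 j.val
    rw [map_one, SlashAction.slash_one]

theorem perMap_tT (hΓ : IsPM Γ M q) (i : Pr M) (F : SF Γ M) :
    perMap hΓ.le (tT i F) = (dataP hΓ i).hom ℂ (perMap hΓ.le F) := by
  have : NeZero i.1 := ⟨i.2.1.ne_zero⟩
  refine AddMonoidHom.ext fun γ => ?_
  obtain ⟨γ, rfl⟩ := Additive.ofMul.surjective γ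
  rw [HData.hom_apply, perMap_apply, coe_tT, WOne.famT_eq_sum]
  simp only [perMap_apply]
  have hadm := SF_adm F.2 1
  -- decay
  have hdec : ∀ x : OnePoint (ZMod i.1), Decays (F.1 1 ∣[(2 : ℤ)] (repS (sg i) x)) := fun x =>
    hadm.slash_mul_upper _ (det_heckeRep_pos x) (heckeRep_low i.2.1.ne_zero x)
  have hpos : ∀ x : OnePoint (ZMod i.1), 0 < (repS (sg i) x).det.val := by
    intro x
    rw [repS, map_mul, Units.val_mul]
    exact mul_pos (det_mapGL_pos _) (det_heckeRep_pos x)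
  have hspec : ∀ x : OnePoint (ZMod i.1), repS (sg i) x * mapGL ℝ (γ : SL(2, ℤ)) =
      mapGL ℝ ((dataP hΓ i).coc γ x : SL(2, ℤ)) * repS (sg i) ((dataP hΓ i).actFun γ x) :=
    fun x => (dataP hΓ i).spec γ x
  have hsl : ∀ x : OnePoint (ZMod i.1),
      F.1 1 ∣[(2 : ℤ)] (repS (sg i) x * mapGL ℝ (γ : SL(2, ℤ))) =
      F.1 1 ∣[(2 : ℤ)] (repS (sg i) ((dataP hΓ i).actFun γ x)) := by
    intro x
    rw [hspec x, SlashAction.slash_mul, SF_slash hΓ.le F.2 ((dataP hΓ i).coc γ x).2]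
  have hdec' : ∀ x : OnePoint (ZMod i.1),
      Decays (F.1 1 ∣[(2 : ℤ)] (repS (sg i) x * mapGL ℝ (γ : SL(2, ℤ)))) := by
    intro x
    rw [hsl x]
    exact hdec _
  have hmain : ∀ x : OnePoint (ZMod i.1), per (F.1 1 ∣[(2 : ℤ)] (repS (sg i) x))
      (mapGL ℝ (γ : SL(2, ℤ))) = per (F.1 1) (mapGL ℝ ((dataP hΓ i).coc γ x : SL(2, ℤ))) +
        per (F.1 1) (repS (sg i) ((dataP hΓ i).actFun γ x)) - per (F.1 1) (repS (sg i) x) := by
    intro x
    have h1 := per_mul (hpos x) (det_mapGL_pos (γ : SL(2, ℤ))) hadm.decays (hdec x) (hdec' x)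
    have h2 := per_mul (det_mapGL_pos ((dataP hΓ i).coc γ x : SL(2, ℤ)))
      (hpos ((dataP hΓ i).actFun γ x)) hadm.decays (hadm _) (by
        rw [← hspec x]; exact hdec' x)
    rw [← hspec x, SF_slash hΓ.le F.2 ((dataP hΓ i).coc γ x).2, h1] at h2
    linear_combination h2
  rw [Finset.sum_congr rfl fun x _ => term_eq i F.2.1.fam x, per_sum _ (fun x _ => hdec x)
    (fun x _ => by rw [← SlashAction.slash_mul]; exact hdec' x),
    Finset.sum_congr rfl fun x _ => hmain x, Finset.sum_sub_distrib, Finset.sum_add_distrib]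
  have h3 : ∑ x : OnePoint (ZMod i.1), per (F.1 1) (repS (sg i) ((dataP hΓ i).actFun γ x)) =
      ∑ x : OnePoint (ZMod i.1), per (F.1 1) (repS (sg i) x) :=
    Equiv.sum_comp ((dataP hΓ i).perm γ) (fun x => per (F.1 1) (repS (sg i) x))
  rw [h3, add_sub_cancel_right]
  rfl

/-- the operators -/
def tOp : Idx M → Module.End ℂ (SF Γ M)
  | Sum.inl i => tT i
  | Sum.inr g => tDia (del M g)

theorem perMap_tOp (hΓ : IsPM Γ M q) (i : Idx M) (F : SF Γ M) :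
    perMap hΓ.le (tOp i F) = (ops hΓ i).op ℂ (perMap hΓ.le F) := by
  rcases i with i | g
  · exact perMap_tT hΓ i F
  · exact perMap_tDia hΓ g F

end Fam

end Fermat.Agent.DSE

end
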