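import Fermat.Agent.DSE.Eig
import Fermat.Agent.LG.TR
import Fermat.Agent.HeckeHom.Theta

/-!
# The universal homomorphism killing parabolic and elliptic elements
-/

set_option autoImplicit false

noncomputable section

namespace Fermat.Agent.DSE

open Matrix.SpecialLinearGroup UpperHalfPlane CongruenceSubgroup
open ModularCurve.Period
open Fermat.Agent.LG (PE mem_PE conjH conjH_apply conjH_mem)
open Fermat.Agent.HeckeHom (HData)
open Fermat.Agent.TW (polyEnd polyEnd_X polyEnd_C)
open scoped MatrixGroups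

section Univ

variable (Γ : Subgroup SL(2, ℤ))

/-- the relations -/
def relQ : AddSubgroup (Additive (Abelianization Γ)) :=
  AddSubgroup.closure {x | ∃ γ : Γ, (((γ : SL(2, ℤ)) : Matrix (Fin 2) (Fin 2) ℤ).trace ^ 2 = 4 ∨
    ∃ τ : ℍ, (γ : SL(2, ℤ)) • τ = τ) ∧ x = Additive.ofMul (Abelianization.of γ)}

/-- the universal quotient -/
def QG : Type := Additive (Abelianization Γ) ⧸ relQ Γ

instance : AddCommGroup (QG Γ) := inferInstanceAs (AddCommGroup (_ ⧸ relQ Γ))

/-- the universal homomorphism -/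
def uni : Additive Γ →+ QG Γ :=
  (QuotientAddGroup.mk' (relQ Γ)).comp (MonoidHom.toAdditive (Abelianization.of (G := Γ)))

theorem uni_mem : uni Γ ∈ PE Γ (QG Γ) := by
  refine ⟨fun γ hγ => ?_, fun γ τ hγ => ?_⟩
  · exact (QuotientAddGroup.eq_zero_iff _).2 (AddSubgroup.subset_closure ⟨γ, Or.inl hγ, rfl⟩)
  · exact (QuotientAddGroup.eq_zero_iff _).2 (AddSubgroup.subset_closure ⟨γ, Or.inr ⟨τ, hγ⟩, rfl⟩)

theorem uni_surjective : Function.Surjective (uni Γ) := by
  intro x
  obtain ⟨y, rfl⟩ := QuotientAddGroup.mk'_surjective (relQ Γ) x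
  obtain ⟨z, hz⟩ := QuotientGroup.mk'_surjective (commutator Γ) y.toMul
  exact ⟨Additive.ofMul z, congrArg (fun t => QuotientAddGroup.mk' (relQ Γ) (Additive.ofMul t)) hz⟩

variable {Γ} {A : Type*} [AddCommGroup A]

/-- the factorisation through the universal quotient -/
def liftQ (x : Additive Γ →+ A) (hx : x ∈ PE Γ A) : QG Γ →+ A :=
  QuotientAddGroup.lift (relQ Γ) (MonoidHom.toAdditiveLeft
    (Abelianization.lift (AddMonoidHom.toMultiplicativeRight x))) (by
    unfold relQ
    rw [AddSubgroup.closure_le]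
    rintro _ ⟨γ, hγ | ⟨τ, hγ⟩, rfl⟩
    · exact hx.1 γ hγ
    · exact hx.2 γ τ hγ)

theorem liftQ_uni (x : Additive Γ →+ A) (hx : x ∈ PE Γ A) (γ : Additive Γ) :
    liftQ x hx (uni Γ γ) = x γ := rfl

theorem liftQ_comp (x : Additive Γ →+ A) (hx : x ∈ PE Γ A) : (liftQ x hx).comp (uni Γ) = x := rfl

theorem hom_ext_Q {f g : QG Γ →+ A} (h : f.comp (uni Γ) = g.comp (uni Γ)) : f = g := by
  refine AddMonoidHom.ext fun x => ?_
  obtain ⟨y, rfl⟩ := uni_surjective Γ x
  exact DFunLike.congr_fun h y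

theorem comp_uni_mem (f : QG Γ →+ A) : f.comp (uni Γ) ∈ PE Γ A := by
  refine ⟨fun γ hγ => ?_, fun γ τ hγ => ?_⟩
  · show f (uni Γ _) = 0
    rw [(uni_mem Γ).1 γ hγ, map_zero]
  · show f (uni Γ _) = 0
    rw [(uni_mem Γ).2 γ τ hγ, map_zero]

instance [Group.FG Γ] : Module.Finite ℤ (QG Γ) := by
  have h1 : AddGroup.FG (Additive Γ) := inferInstance
  have h2 : AddGroup.FG (QG Γ) := AddGroup.fg_of_surjective (uni_surjective Γ)
  exact Module.Finite.iff_addGroup_fg.2 h2

end Univ

section Nat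

variable {Γ : Subgroup SL(2, ℤ)}

/-- natural operators on `PE Γ` -/
structure NatOp (Γ : Subgroup SL(2, ℤ)) where
  /-- the operator -/
  op : ∀ (A : Type) [AddCommGroup A], (Additive Γ →+ A) → (Additive Γ →+ A)
  mem : ∀ (A : Type) [AddCommGroup A] (x : Additive Γ →+ A), x ∈ PE Γ A → op A x ∈ PE Γ A
  nat : ∀ (A B : Type) [AddCommGroup A] [AddCommGroup B] (f : A →+ B) (x : Additive Γ →+ A),
    op B (f.comp x) = f.comp (op A x)

/-- the corresponding endomorphism of the universal quotient -/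
def NatOp.tau (T : NatOp Γ) : Module.End ℤ (QG Γ) :=
  (liftQ (T.op _ (uni Γ)) (T.mem _ _ (uni_mem Γ))).toIntLinearMap

theorem NatOp.tau_uni (T : NatOp Γ) (γ : Additive Γ) : T.tau (uni Γ γ) = T.op _ (uni Γ) γ := rfl

theorem NatOp.op_comp (T : NatOp Γ) {A : Type} [AddCommGroup A] (f : QG Γ →+ A) (γ : Additive Γ) :
    T.op A (f.comp (uni Γ)) γ = f (T.tau (uni Γ γ)) := by
  rw [T.nat]
  rfl

theorem polyEnd_comp {Q I : Type} [AddCommGroup Q] (τ : I → Module.End ℤ Q)
    (hτ : ∀ i j, τ i * τ j = τ j * τ i) {H : Type} [AddCommGroup H]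
    (t : I → Module.End ℤ H) (ht : ∀ i j, t i * t j = t j * t i) {A : Type} [AddCommGroup A]
    (Φ : H →+ (Q →+ A)) (h : ∀ i s x, Φ (t i s) x = Φ s (τ i x)) (a : MvPolynomial I ℤ) :
    ∀ s x, Φ (polyEnd t ht a s) x = Φ s (polyEnd τ hτ a x) := by
  induction a using MvPolynomial.induction_on with
  | C n =>
    intro s x
    rw [polyEnd_C, polyEnd_C, Module.algebraMap_end_apply, Module.algebraMap_end_apply,
      map_zsmul, map_zsmul, AddMonoidHom.zsmul_apply]
  | add p q hp hq =>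
    intro s x
    rw [map_add, map_add, LinearMap.add_apply, LinearMap.add_apply, map_add, map_add,
      AddMonoidHom.add_apply, hp, hq]
  | mul_X p i hp =>
    intro s x
    rw [mul_comm p, map_mul, mul_comm (MvPolynomial.X i) p, map_mul, polyEnd_X, polyEnd_X,
      Module.End.mul_apply, Module.End.mul_apply, h, hp]

/-- **Eigenclasses.** -/
theorem exists_eigenclass [Group.FG Γ] {I : Type} (T : I → NatOp Γ)
    (hT : ∀ i j (x : Additive Γ →+ QG Γ), x ∈ PE Γ (QG Γ) →
      (T i).op _ ((T j).op _ x) = (T j).op _ ((T i).op _ x))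
    {S : Type} [AddCommGroup S] [Module ℂ S] (P : S →+ (Additive Γ →+ ℂ))
    (hP : Function.Injective P) (hPE : ∀ s, P s ∈ PE Γ ℂ) (t : I → Module.End ℂ S)
    (ht : ∀ i s, P (t i s) = (T i).op ℂ (P s))
    (V : ValuationSubring ℂ) (W : AddSubgroup S) (hWV : ∀ v ∈ V, ∀ w ∈ W, v • w ∈ W)
    (hWt : ∀ i, ∀ w ∈ W, t i w ∈ W) (G : S) (hG : ∀ v ∈ V, v • G ∈ W → V.valuation v < 1)
    (c : I → V) (hc : ∀ i, t i G - (c i : ℂ) • G ∈ W) :
    ∃ F : Additive Γ →+ IsLocalRing.ResidueField V, F ∈ PE Γ _ ∧ F ≠ 0 ∧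
      ∀ i γ, (T i).op _ F γ = IsLocalRing.residue V (c i) * F γ := by
  have hcomm : ∀ i j, (T i).tau * (T j).tau = (T j).tau * (T i).tau := by
    intro i j
    refine LinearMap.ext fun x => ?_
    obtain ⟨γ, rfl⟩ := uni_surjective Γ x
    have h1 := hT j i (uni Γ) (uni_mem Γ)
    have h2 : ∀ i j, (T j).op _ ((T i).op _ (uni Γ)) γ = (T i).tau ((T j).tau (uni Γ γ)) := by
      intro i j
      have h3 : (T i).op _ (uni Γ) = ((T i).tau.toAddMonoidHom).comp (uni Γ) :=
        AddMonoidHom.ext fun γ => rfl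
      rw [h3, (T j).op_comp]
      rfl
    show (T i).tau ((T j).tau (uni Γ γ)) = (T j).tau ((T i).tau (uni Γ γ))
    rw [← h2, ← h2, h1]
  let Φ : S →+ (QG Γ →+ ℂ) :=
    { toFun := fun s => liftQ (P s) (hPE s)
      map_zero' := hom_ext_Q (by rw [liftQ_comp, map_zero]; rfl)
      map_add' := fun s s' => hom_ext_Q (by
        rw [liftQ_comp, map_add, AddMonoidHom.add_comp, liftQ_comp, liftQ_comp]) }
  have hΦ : ∀ s, (Φ s).comp (uni Γ) = P s := fun s => rfl
  have hΦt : ∀ i s x, Φ (t i s) x = Φ s ((T i).tau x) := by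
    intro i s x
    obtain ⟨γ, rfl⟩ := uni_surjective Γ x
    rw [← (T i).op_comp, hΦ, ← ht]
    rfl
  have hΦi : ∀ s, (∀ x, Φ s x = 0) → s = 0 := by
    intro s hs
    refine hP ?_
    rw [map_zero]
    exact AddMonoidHom.ext fun γ => hs (uni Γ γ)
  let tZ : I → Module.End ℤ S := fun i => (t i).toAddMonoidHom.toIntLinearMap
  have htZ : ∀ i s, tZ i s = t i s := fun _ _ => rfl
  have htc : ∀ i j, tZ i * tZ j = tZ j * tZ i := by
    intro i j
    refine LinearMap.ext fun s => sub_eq_zero.1 (hΦi _ fun x => ?_)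
    rw [Module.End.mul_apply, Module.End.mul_apply, map_sub, AddMonoidHom.sub_apply, htZ, htZ, htZ,
      htZ, hΦt, hΦt, hΦt, hΦt, sub_eq_zero]
    exact congrArg (Φ s) (LinearMap.congr_fun (hcomm j i) x)
  have key : ∀ a : MvPolynomial I ℤ, polyEnd tZ htc a G -
      ((MvPolynomial.aeval c a : V) : ℂ) • G ∈ W := by
    intro a
    induction a using MvPolynomial.induction_on with
    | C n =>
      have : polyEnd tZ htc (MvPolynomial.C n) G -
          ((MvPolynomial.aeval c (MvPolynomial.C n) : V) : ℂ) • G = 0 := by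
        rw [polyEnd_C, Module.algebraMap_end_apply, MvPolynomial.aeval_C, sub_eq_zero]
        rw [← Int.cast_smul_eq_zsmul ℂ]
        congr 1
      rw [this]
      exact W.zero_mem
    | add p q hp hq =>
      have := W.add_mem hp hq
      rw [map_add, map_add, LinearMap.add_apply]
      push_cast
      rw [add_smul]
      convert this using 1
      abel
    | mul_X p i hp =>
      have h1 := W.add_mem (hWt i _ hp) (hWV _ (MvPolynomial.aeval c p : V).2 _ (hc i))
      have h2 : polyEnd tZ htc (p * MvPolynomial.X i) G = t i (polyEnd tZ htc p G) := by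
        rw [mul_comm p, map_mul, polyEnd_X, Module.End.mul_apply, htZ]
      rw [h2, map_mul, MvPolynomial.aeval_X]
      convert h1 using 1
      rw [map_sub, map_smul, smul_sub, smul_smul]
      push_cast
      abel
  obtain ⟨F, hF, hFi⟩ := exists_eigenfunctional (fun i => (T i).tau) hcomm
    (fun i => IsLocalRing.residue V (c i)) (fun a ha => by
      have h1 : polyEnd tZ htc a G = 0 := by
        refine hΦi _ fun x => ?_
        rw [polyEnd_comp _ hcomm tZ htc Φ hΦt, ha, LinearMap.zero_apply, map_zero]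
      have h2 := key a
      rw [h1, zero_sub, ← _root_.neg_smul] at h2
      have h3 := hG _ (V.neg_mem _ (MvPolynomial.aeval c a : V).2) h2
      rw [Valuation.map_neg] at h3
      have h4 : IsLocalRing.residue V (MvPolynomial.aeval c a) = 0 := by
        rw [IsLocalRing.residue_eq_zero_iff]
        exact (ValuationSubring.valuation_lt_one_iff V _).2 h3
      rw [← h4]
      have h5 := MvPolynomial.aeval_algebraMap_apply (R := ℤ) (IsLocalRing.ResidueField V) c a
      exact h5)
  refine ⟨F.comp (uni Γ), comp_uni_mem F, ?_, fun i γ => ?_⟩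
  · intro h0
    exact hF (hom_ext_Q h0)
  · rw [(T i).op_comp, hFi]
    rfl

end Nat

end Fermat.Agent.DSE

end
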